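import Mathlib
import Fermat.Prelude.Def_ModularCurve_JqCoeff
import Fermat.Agent.S24.ModularDefs
import Fermat.Agent.MU.S24.JFunAux2

section MergeWrap_S24_Expansion -- from S24/Expansion.lean

set_option autoImplicit false

noncomputable section

namespace Fermat.Agent.S24

open UpperHalfPlane
open scoped MatrixGroups

/-- The local parameter `u = exp(2πiτ/M)` at the cusp `∞`. -/
def uParam (M : ℕ) (τ : ℍ) : ℂ := Function.Periodic.qParam (M : ℝ) (τ : ℂ)

/-- `f = ∑ iota(pₙ) uⁿ` on the whole upper half plane, absolutely convergent. -/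
def HasPExp (M : ℕ) (f : Fun) (p : PowerSeries Kbar) : Prop :=
  ∀ τ : ℍ, Summable (fun n : ℕ => ‖iota (PowerSeries.coeff n p)‖ * ‖uParam M τ‖ ^ n) ∧
    HasSum (fun n : ℕ => iota (PowerSeries.coeff n p) * uParam M τ ^ n) (f τ)

/-- `f` has the Laurent expansion `a` in `u`: `uᵐ f = ∑ iota(pₙ) uⁿ` with `a = u⁻ᵐ p`. -/
def HasExp (M : ℕ) (f : Fun) (a : LaurentSeries Kbar) : Prop :=
  ∃ (m : ℕ) (p : PowerSeries Kbar),
    a = HahnSeries.single (-(m : ℤ)) (1 : Kbar) * HahnSeries.ofPowerSeries ℤ Kbar p ∧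
    HasPExp M (fun τ => f τ * uParam M τ ^ m) p

/-- `u` as a function. -/
def uFun (M : ℕ) : Fun := fun τ => uParam M τ

theorem iota_injective : Function.Injective iota := iota.injective

theorem uParam_ne_zero (M : ℕ) (τ : ℍ) : uParam M τ ≠ 0 :=
  Function.Periodic.qParam_ne_zero _

theorem norm_uParam_lt_one (M : ℕ) [NeZero M] (τ : ℍ) : ‖uParam M τ‖ < 1 := by
  have hM : (0 : ℝ) < M := Nat.cast_pos.mpr (Nat.pos_of_ne_zero (NeZero.ne M))
  exact Function.Periodic.norm_qParam_lt_one hM τ.im_pos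

theorem uParam_pow (M : ℕ) [NeZero M] (τ : ℍ) : uParam M τ ^ M = uParam 1 τ := by
  have hM : (M : ℂ) ≠ 0 := Nat.cast_ne_zero.mpr (NeZero.ne M)
  simp only [uParam, Function.Periodic.qParam]
  rw [← Complex.exp_nat_mul]
  congr 1
  push_cast
  field_simp

/-- `u(dτ)` for `d ∣ M`... more generally `u_M(τ)^(M*d) = q(dτ)`. -/
theorem uParam_one_scale (M d : ℕ) [NeZero M] [NeZero d] (τ : ℍ) :
    uParam 1 (scale d τ) = uParam M τ ^ (M * d) := by
  have hM : (M : ℂ) ≠ 0 := Nat.cast_ne_zero.mpr (NeZero.ne M)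
  simp only [uParam, Function.Periodic.qParam, coe_scale]
  rw [← Complex.exp_nat_mul]
  congr 1
  push_cast
  field_simp

theorem exists_uParam_eq (M : ℕ) [NeZero M] {z : ℂ} (hz0 : z ≠ 0) (hz1 : ‖z‖ < 1) :
    ∃ τ : ℍ, uParam M τ = z := by
  have hM : (0 : ℝ) < M := Nat.cast_pos.mpr (Nat.pos_of_ne_zero (NeZero.ne M))
  have him : 0 < (Function.Periodic.invQParam (M : ℝ) z).im := by
    rw [Function.Periodic.im_invQParam]
    have hlog : Real.log ‖z‖ < 0 := Real.log_neg (norm_pos_iff.mpr hz0) hz1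
    have : -(M : ℝ) / (2 * Real.pi) < 0 := by
      apply div_neg_of_neg_of_pos (by linarith) (by positivity)
    exact mul_pos_of_neg_of_neg this hlog
  exact ⟨⟨_, him⟩, Function.Periodic.qParam_right_inv hM.ne' hz0⟩

/-- `u (τ + 1) = ζ u(τ)`, `ζ = exp(2πi/M)`. -/
theorem uParam_T_smul (M : ℕ) [NeZero M] (τ : ℍ) :
    uParam M (ModularGroup.T • τ) = Complex.exp (2 * Real.pi * Complex.I / M) * uParam M τ := by
  have hM : (M : ℂ) ≠ 0 := Nat.cast_ne_zero.mpr (NeZero.ne M)
  simp only [uParam, Function.Periodic.qParam]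
  rw [← Complex.exp_add]
  congr 1
  rw [UpperHalfPlane.modular_T_smul]
  simp only [UpperHalfPlane.coe_vadd]
  push_cast
  field_simp

/-- a power series vanishing on the punctured unit disc is zero -/
theorem coeff_eq_zero_of_hasSum_zero (c : ℕ → ℂ)
    (hs : ∀ z : ℂ, z ≠ 0 → ‖z‖ < 1 → Summable (fun n : ℕ => ‖c n‖ * ‖z‖ ^ n))
    (h : ∀ z : ℂ, z ≠ 0 → ‖z‖ < 1 → HasSum (fun n : ℕ => c n * z ^ n) 0) : c = 0 := by
  set P : FormalMultilinearSeries ℂ ℂ ℂ := FormalMultilinearSeries.ofScalars ℂ c with hP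
  have hrad : (1 : ENNReal) ≤ P.radius := by
    refine le_of_forall_lt_imp_le_of_dense fun r hr => ?_
    rcases eq_or_ne r 0 with rfl | hr'
    · simp
    · lift r to NNReal using hr.ne_top
      apply FormalMultilinearSeries.le_radius_of_summable
      have hr1 : (r : ℝ) < 1 := by exact_mod_cast hr
      have hr0 : (r : ℂ) ≠ 0 := by
        have : r ≠ 0 := by exact_mod_cast hr'
        exact_mod_cast this
      have := hs (r : ℂ) hr0 (by simpa using hr1)
      simpa [hP, FormalMultilinearSeries.ofScalars_norm] using this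
  have hpos : 0 < P.radius := lt_of_lt_of_le one_pos hrad
  have hF := P.hasFPowerSeriesOnBall hpos
  have hsum : ∀ z : ℂ, z ≠ 0 → ‖z‖ < 1 → P.sum z = 0 := by
    intro z hz0 hz1
    have h1 : HasSum (fun n : ℕ => P n fun _ => z) (P.sum z) := by
      have := hF.hasSum (y := z) (by
        have hz1' : ‖z‖ₑ < 1 := by
          rw [← ofReal_norm]
          exact (ENNReal.ofReal_lt_one).mpr hz1
        have : ‖z‖ₑ < P.radius := lt_of_lt_of_le hz1' hrad
        simpa [Metric.eball, edist_zero_right] using this)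
      simpa using this
    have h2 : (fun n : ℕ => P n fun _ => z) = fun n => c n * z ^ n := by
      funext n
      simp [hP, mul_comm]
    rw [h2] at h1
    exact h1.unique (h z hz0 hz1)
  have hev : ∀ᶠ z in nhdsWithin (0 : ℂ) {0}ᶜ, P.sum z = 0 := by
    have : Metric.ball (0 : ℂ) 1 ∈ nhds (0 : ℂ) := Metric.ball_mem_nhds 0 one_pos
    filter_upwards [nhdsWithin_le_nhds this, self_mem_nhdsWithin] with z hz hz0
    exact hsum z hz0 (by simpa using hz)
  have hcont : ContinuousAt P.sum 0 := hF.hasFPowerSeriesAt.continuousAt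
  have hev' : ∀ᶠ z in nhds (0 : ℂ), P.sum z = 0 := by
    have := (hcont.eventuallyEq_nhds_iff_eventuallyEq_nhdsNE (g := fun _ => (0 : ℂ))
      continuousAt_const).mp hev
    exact this
  have hP0 : P = 0 := by
    have h1 : HasFPowerSeriesAt (fun _ : ℂ => (0 : ℂ)) P 0 :=
      hF.hasFPowerSeriesAt.congr hev'
    exact h1.eq_zero
  exact (FormalMultilinearSeries.ofScalars_series_eq_zero (E := ℂ)).mp hP0

namespace HasPExp

variable {M : ℕ} {f g : Fun} {p q : PowerSeries Kbar}

theorem add (hf : HasPExp M f p) (hg : HasPExp M g q) : HasPExp M (f + g) (p + q) := by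
  intro τ
  obtain ⟨hf1, hf2⟩ := hf τ
  obtain ⟨hg1, hg2⟩ := hg τ
  refine ⟨?_, ?_⟩
  · refine Summable.of_nonneg_of_le (fun n => by positivity) (fun n => ?_) (hf1.add hg1)
    rw [map_add, map_add, ← add_mul]
    exact mul_le_mul_of_nonneg_right (norm_add_le _ _) (by positivity)
  · have := hf2.add hg2
    simpa [map_add, add_mul] using this

theorem mul (hf : HasPExp M f p) (hg : HasPExp M g q) : HasPExp M (f * g) (p * q) := by
  intro τ
  obtain ⟨hf1, hf2⟩ := hf τ
  obtain ⟨hg1, hg2⟩ := hg τ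
  set u := uParam M τ with hu
  have hf1' : Summable (fun n : ℕ => ‖iota (PowerSeries.coeff n p) * u ^ n‖) := by
    simpa [norm_mul, norm_pow] using hf1
  have hg1' : Summable (fun n : ℕ => ‖iota (PowerSeries.coeff n q) * u ^ n‖) := by
    simpa [norm_mul, norm_pow] using hg1
  have key : ∀ n : ℕ, iota (PowerSeries.coeff n (p * q)) * u ^ n =
      ∑ kl ∈ Finset.HasAntidiagonal.antidiagonal n,
        (iota (PowerSeries.coeff kl.1 p) * u ^ kl.1) *
          (iota (PowerSeries.coeff kl.2 q) * u ^ kl.2) := by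
    intro n
    rw [PowerSeries.coeff_mul, map_sum, Finset.sum_mul]
    refine Finset.sum_congr rfl (fun kl hkl => ?_)
    have : kl.1 + kl.2 = n := Finset.HasAntidiagonal.mem_antidiagonal.mp hkl
    rw [map_mul, ← this, pow_add]
    ring
  have hsum := summable_norm_sum_mul_antidiagonal_of_summable_norm hf1' hg1'
  refine ⟨?_, ?_⟩
  · have : (fun n : ℕ => ‖iota (PowerSeries.coeff n (p * q))‖ * ‖u‖ ^ n) =
        fun n => ‖∑ kl ∈ Finset.HasAntidiagonal.antidiagonal n,
        (iota (PowerSeries.coeff kl.1 p) * u ^ kl.1) *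
          (iota (PowerSeries.coeff kl.2 q) * u ^ kl.2)‖ := by
      funext n
      rw [← key n, norm_mul, norm_pow]
    rw [this]
    exact hsum
  · have h1 := tsum_mul_tsum_eq_tsum_sum_antidiagonal_of_summable_norm hf1' hg1'
    have h2 : Summable (fun n : ℕ => ∑ kl ∈ Finset.HasAntidiagonal.antidiagonal n,
        (iota (PowerSeries.coeff kl.1 p) * u ^ kl.1) *
          (iota (PowerSeries.coeff kl.2 q) * u ^ kl.2)) :=
      hsum.of_norm
    have h3 := h2.hasSum
    rw [← h1, hf2.tsum_eq, hg2.tsum_eq] at h3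
    simp only [Fun.mul_apply]
    convert h3 using 1
    funext n
    exact key n

theorem const (M : ℕ) (a : Kbar) : HasPExp M (algebraMap Kbar Fun a) (PowerSeries.C a) := by
  intro τ
  have h0 : ∀ n : ℕ, n ≠ 0 → iota (PowerSeries.coeff n (PowerSeries.C a)) = 0 := by
    intro n hn
    rw [PowerSeries.coeff_C, if_neg hn, map_zero]
  refine ⟨?_, ?_⟩
  · refine summable_of_ne_finset_zero (s := {0}) (fun n hn => ?_)
    rw [h0 n (by simpa using hn), norm_zero, zero_mul]
  · have := hasSum_single (f := fun n : ℕ =>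
      iota (PowerSeries.coeff n (PowerSeries.C a)) * uParam M τ ^ n) 0
      (fun n hn => by beta_reduce; rw [h0 n hn, zero_mul])
    simpa using this

theorem X (M : ℕ) [NeZero M] : HasPExp M (uFun M) PowerSeries.X := by
  intro τ
  have h0 : ∀ n : ℕ, n ≠ 1 → iota (PowerSeries.coeff n (PowerSeries.X : PowerSeries Kbar)) = 0 := by
    intro n hn
    rw [PowerSeries.coeff_X, if_neg hn, map_zero]
  refine ⟨?_, ?_⟩
  · refine summable_of_ne_finset_zero (s := {1}) (fun n hn => ?_)
    rw [h0 n (by simpa using hn), norm_zero, zero_mul]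
  · have := hasSum_single (f := fun n : ℕ =>
      iota (PowerSeries.coeff n (PowerSeries.X : PowerSeries Kbar)) * uParam M τ ^ n) 1
      (fun n hn => by beta_reduce; rw [h0 n hn, zero_mul])
    simpa [uFun] using this

theorem neg (hf : HasPExp M f p) : HasPExp M (-f) (-p) := by
  have h := (HasPExp.const M (-1 : Kbar)).mul hf
  have e1 : algebraMap Kbar Fun (-1) * f = -f := by
    rw [map_neg, map_one, neg_one_mul]
  have e2 : PowerSeries.C (-1 : Kbar) * p = -p := by
    rw [map_neg, map_one, neg_one_mul]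
  rwa [e1, e2] at h

theorem sub (hf : HasPExp M f p) (hg : HasPExp M g q) : HasPExp M (f - g) (p - q) := by
  have h := hf.add hg.neg
  rwa [← sub_eq_add_neg, ← sub_eq_add_neg] at h

/-- the function determines the series -/
theorem coeff_unique [NeZero M] (hf : HasPExp M f p) (hf' : HasPExp M f q) : p = q := by
  have hd := hf.sub hf'
  rw [sub_self] at hd
  have hc : (fun n : ℕ => iota (PowerSeries.coeff n (p - q))) = 0 := by
    apply coeff_eq_zero_of_hasSum_zero
    · intro z hz0 hz1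
      obtain ⟨τ, rfl⟩ := exists_uParam_eq M hz0 hz1
      exact (hd τ).1
    · intro z hz0 hz1
      obtain ⟨τ, rfl⟩ := exists_uParam_eq M hz0 hz1
      exact (hd τ).2
  rw [← sub_eq_zero]
  ext n
  have := congrFun hc n
  simp only [Pi.zero_apply] at this
  rw [map_zero]
  exact iota_injective (by rw [this, map_zero])

/-- the series determines the function -/
theorem fun_unique (hf : HasPExp M f p) (hg : HasPExp M g p) : f = g := by
  ext τ
  exact (hf τ).2.unique (hg τ).2

end HasPExp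

namespace HasExp

variable {M : ℕ} {f g : Fun} {a b : LaurentSeries Kbar}

/-! helper lemmas (helper54) -/

theorem pexp_congr {p : PowerSeries Kbar} (h : HasPExp M f p) (e : ∀ τ : ℍ, g τ = f τ) : HasPExp M g p := by
  intro τ
  have := h τ
  rw [← e τ] at this
  exact this


theorem pexp_X_pow (M : ℕ) [NeZero M] (n : ℕ) : HasPExp M (uFun M ^ n) (PowerSeries.X ^ n) := by
  induction n with
  | zero =>
    have := HasPExp.const M (1 : Kbar)
    simpa using this
  | succ n ih =>
    rw [pow_succ, pow_succ]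
    exact ih.mul (HasPExp.X M)


theorem shift_eq (m n : ℕ) (p : PowerSeries Kbar) :
    HahnSeries.single (-(m : ℤ)) (1 : Kbar) * HahnSeries.ofPowerSeries ℤ Kbar p
      = HahnSeries.single (-((m + n : ℕ) : ℤ)) (1 : Kbar) *
          HahnSeries.ofPowerSeries ℤ Kbar (PowerSeries.X ^ n * p) := by
  rw [map_mul, HahnSeries.ofPowerSeries_X_pow, ← mul_assoc, HahnSeries.single_mul_single]
  have e : -((m + n : ℕ) : ℤ) + (n : ℤ) = -(m : ℤ) := by push_cast; ring
  rw [e, mul_one]

theorem shift_hasPExp [NeZero M] {m : ℕ} {p : PowerSeries Kbar}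
    (h : HasPExp M (fun τ => f τ * uParam M τ ^ m) p) (n : ℕ) :
    HasPExp M (fun τ => f τ * uParam M τ ^ (m + n)) (PowerSeries.X ^ n * p) := by
  refine pexp_congr ((pexp_X_pow M n).mul h) fun τ => ?_
  show f τ * uParam M τ ^ (m + n) = uParam M τ ^ n * (f τ * uParam M τ ^ m)
  rw [pow_add]; ring


theorem single_mul_cancel (k : ℤ) {x y : LaurentSeries Kbar}
    (h : HahnSeries.single k (1 : Kbar) * x = HahnSeries.single k (1 : Kbar) * y) : x = y := by
  have e : HahnSeries.single (-k) (1 : Kbar) * HahnSeries.single k (1 : Kbar) = 1 := by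
    rw [HahnSeries.single_mul_single, mul_one, neg_add_cancel]
    rfl
  calc x = (HahnSeries.single (-k) (1 : Kbar) * HahnSeries.single k (1 : Kbar)) * x := by
        rw [e, one_mul]
    _ = (HahnSeries.single (-k) (1 : Kbar) * HahnSeries.single k (1 : Kbar)) * y := by
        rw [mul_assoc, h, ← mul_assoc]
    _ = y := by rw [e, one_mul]

/-- every complex number algebraic over `ℚ` is in the image of `iota`. -/
theorem exists_iota_eq_of_isAlgebraic {z : ℂ} (hz : IsAlgebraic ℚ z) : ∃ a : Kbar, iota a = z := by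
  let _ : Algebra Kbar ℂ := iota.toAlgebra
  have : IsScalarTower ℚ Kbar ℂ := IsScalarTower.of_algebraMap_eq fun q => by
    show algebraMap ℚ ℂ q = iota (algebraMap ℚ Kbar q)
    simp
  have hz' : IsIntegral Kbar z := (hz.tower_top Kbar).isIntegral
  have h1 : (minpoly Kbar z).degree = 1 :=
    IsAlgClosed.degree_eq_one_of_irreducible Kbar (minpoly.irreducible hz')
  obtain ⟨a, ha⟩ := minpoly.mem_range_of_degree_eq_one Kbar z h1
  exact ⟨a, ha⟩

theorem exists_iota_eq_exp (M : ℕ) [NeZero M] :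
    ∃ ζ : Kbar, iota ζ = Complex.exp (2 * Real.pi * Complex.I / M) := by
  apply exists_iota_eq_of_isAlgebraic
  have hprim := Complex.isPrimitiveRoot_exp M (NeZero.ne M)
  refine ⟨Polynomial.X ^ M - 1, ?_, ?_⟩
  · exact Polynomial.X_pow_sub_C_ne_zero (Nat.pos_of_ne_zero (NeZero.ne M)) (1 : ℚ)
  · simp [hprim.pow_eq_one]

theorem uParam_mul_pow (M k : ℕ) [NeZero M] [NeZero k] (τ : ℍ) :
    uParam (M * k) τ ^ k = uParam M τ := by
  simp only [uParam, Function.Periodic.qParam]
  rw [← Complex.exp_nat_mul]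
  congr 1
  have hM : (M : ℂ) ≠ 0 := Nat.cast_ne_zero.mpr (NeZero.ne M)
  have hk : (k : ℂ) ≠ 0 := Nat.cast_ne_zero.mpr (NeZero.ne k)
  push_cast
  field_simp


/-- The substitution `X ↦ X ^ k` on power series. -/
def expandPS (k : ℕ) (p : PowerSeries Kbar) : PowerSeries Kbar :=
  PowerSeries.mk fun n => if k ∣ n then PowerSeries.coeff (n / k) p else 0

theorem coeff_expandPS_mul (k : ℕ) [NeZero k] (p : PowerSeries Kbar) (j : ℕ) :
    PowerSeries.coeff (k * j) (expandPS k p) = PowerSeries.coeff j p := by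
  rw [expandPS, PowerSeries.coeff_mk, if_pos (dvd_mul_right k j),
    Nat.mul_div_cancel_left j (Nat.pos_of_ne_zero (NeZero.ne k))]

theorem coeff_expandPS_of_not_dvd (k : ℕ) (p : PowerSeries Kbar) {n : ℕ} (h : ¬ k ∣ n) :
    PowerSeries.coeff n (expandPS k p) = 0 := by
  rw [expandPS, PowerSeries.coeff_mk, if_neg h]

theorem qExpand_ofPowerSeries (k : ℕ) [NeZero k] (p : PowerSeries Kbar) :
    ModularCurve.qExpand Kbar k (HahnSeries.ofPowerSeries ℤ Kbar p)
      = HahnSeries.ofPowerSeries ℤ Kbar (expandPS k p) := by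
  ext n
  by_cases hn : n < 0
  · rw [ModularCurve.ofPowerSeries_coeff_of_neg _ hn]
    by_cases hk : (k : ℤ) ∣ n
    · obtain ⟨j, rfl⟩ := hk
      rw [ModularCurve.qExpand_coeff_mul]
      refine ModularCurve.ofPowerSeries_coeff_of_neg _ ?_
      have hk0 : (0 : ℤ) < k := by exact_mod_cast Nat.pos_of_ne_zero (NeZero.ne k)
      by_contra hj
      rw [not_lt] at hj
      have := mul_nonneg hk0.le hj
      omega
    · exact ModularCurve.qExpand_coeff_of_not_dvd k _ hk
  · rw [not_lt] at hn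
    obtain ⟨n', rfl⟩ := Int.eq_ofNat_of_zero_le hn
    rw [HahnSeries.ofPowerSeries_apply_coeff]
    by_cases hk : k ∣ n'
    · obtain ⟨j, rfl⟩ := hk
      rw [coeff_expandPS_mul]
      have : ((k * j : ℕ) : ℤ) = (k : ℤ) * (j : ℤ) := by push_cast; ring
      rw [this, ModularCurve.qExpand_coeff_mul, HahnSeries.ofPowerSeries_apply_coeff]
    · rw [coeff_expandPS_of_not_dvd k p hk]
      refine ModularCurve.qExpand_coeff_of_not_dvd k _ ?_
      intro h
      exact hk (by exact_mod_cast h)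

theorem hasPExp_expandPS {M : ℕ} [NeZero M] (k : ℕ) [NeZero k] {f : Fun} {p : PowerSeries Kbar}
    (h : HasPExp M f p) : HasPExp (M * k) f (expandPS k p) := by
  intro τ
  obtain ⟨h1, h2⟩ := h τ
  have hu := uParam_mul_pow M k τ
  have hinj : Function.Injective (fun j : ℕ => k * j) :=
    fun a b hab => Nat.eq_of_mul_eq_mul_left (Nat.pos_of_ne_zero (NeZero.ne k)) hab
  have hrange : ∀ n : ℕ, n ∉ Set.range (fun j : ℕ => k * j) → ¬ k ∣ n := by
    intro n hn hk
    obtain ⟨j, rfl⟩ := hk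
    exact hn ⟨j, rfl⟩
  constructor
  · rw [← hinj.summable_iff]
    · have e : ((fun n : ℕ => ‖iota (PowerSeries.coeff n (expandPS k p))‖ *
            ‖uParam (M * k) τ‖ ^ n) ∘ fun j : ℕ => k * j)
          = fun n : ℕ => ‖iota (PowerSeries.coeff n p)‖ * ‖uParam M τ‖ ^ n := by
        funext j
        simp only [Function.comp_apply]
        rw [coeff_expandPS_mul, pow_mul, ← hu, norm_pow]
      rw [e]
      exact h1
    · intro n hn
      rw [coeff_expandPS_of_not_dvd k p (hrange n hn)]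
      simp
  · rw [← hinj.hasSum_iff]
    · have e : ((fun n : ℕ => iota (PowerSeries.coeff n (expandPS k p)) *
            uParam (M * k) τ ^ n) ∘ fun j : ℕ => k * j)
          = fun n : ℕ => iota (PowerSeries.coeff n p) * uParam M τ ^ n := by
        funext j
        simp only [Function.comp_apply]
        rw [coeff_expandPS_mul, pow_mul, hu]
      rw [e]
      exact h2
    · intro n hn
      rw [coeff_expandPS_of_not_dvd k p (hrange n hn)]
      simp

theorem norm_exp_two_pi_div (M : ℕ) :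
    ‖Complex.exp (2 * Real.pi * Complex.I / M)‖ = 1 := by
  have e : (2 * Real.pi * Complex.I / M : ℂ) = ((2 * Real.pi / M : ℝ) : ℂ) * Complex.I := by
    push_cast; ring
  rw [e, Complex.norm_exp_ofReal_mul_I]

/-! the API -/

theorem of_hasPExp {p : PowerSeries Kbar} (hf : HasPExp M f p) :
    HasExp M f (HahnSeries.ofPowerSeries ℤ Kbar p) := by
  refine ⟨0, p, ?_, pexp_congr hf fun τ => ?_⟩
  · rw [Nat.cast_zero, neg_zero]
    change _ = (1 : LaurentSeries Kbar) * _
    rw [one_mul]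
  · show f τ * uParam M τ ^ 0 = f τ
    rw [pow_zero, mul_one]

theorem add [NeZero M] (hf : HasExp M f a) (hg : HasExp M g b) : HasExp M (f + g) (a + b) := by
  obtain ⟨m, p, rfl, hp⟩ := hf
  obtain ⟨n, q, rfl, hq⟩ := hg
  refine ⟨m + n, PowerSeries.X ^ n * p + PowerSeries.X ^ m * q, ?_, ?_⟩
  · rw [map_add, mul_add, ← shift_eq m n p, shift_eq n m q, add_comm n m]
  · have h1 := shift_hasPExp hp n
    have h2 := shift_hasPExp hq m
    refine pexp_congr (h1.add h2) fun τ => ?_
    show (f τ + g τ) * uParam M τ ^ (m + n)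
      = f τ * uParam M τ ^ (m + n) + g τ * uParam M τ ^ (n + m)
    rw [add_comm n m]; ring

theorem mul [NeZero M] (hf : HasExp M f a) (hg : HasExp M g b) : HasExp M (f * g) (a * b) := by
  obtain ⟨m, p, rfl, hp⟩ := hf
  obtain ⟨n, q, rfl, hq⟩ := hg
  refine ⟨m + n, p * q, ?_, ?_⟩
  · rw [map_mul]
    have e : HahnSeries.single (-((m + n : ℕ) : ℤ)) (1 : Kbar)
        = HahnSeries.single (-(m : ℤ)) (1 : Kbar) * HahnSeries.single (-(n : ℤ)) (1 : Kbar) := by
      have e2 : -((m + n : ℕ) : ℤ) = -(m : ℤ) + -(n : ℤ) := by push_cast; ring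
      rw [HahnSeries.single_mul_single, mul_one, e2]
    rw [e]
    exact (mul_mul_mul_comm _ _ _ _).symm
  · refine pexp_congr (hp.mul hq) fun τ => ?_
    show (f τ * g τ) * uParam M τ ^ (m + n)
      = (f τ * uParam M τ ^ m) * (g τ * uParam M τ ^ n)
    rw [pow_add]; ring

theorem algebraMap (M : ℕ) (c : Kbar) :
    HasExp M (algebraMap Kbar Fun c) (algebraMap Kbar (LaurentSeries Kbar) c) := by
  have h := of_hasPExp (HasPExp.const M c)
  have e : Algebra.algebraMap Kbar (LaurentSeries Kbar) c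
      = HahnSeries.ofPowerSeries ℤ Kbar (PowerSeries.C c) := by
    rw [HahnSeries.algebraMap_apply']
    congr 1
  rw [e]
  exact h

theorem neg [NeZero M] (hf : HasExp M f a) : HasExp M (-f) (-a) := by
  obtain ⟨m, p, rfl, hp⟩ := hf
  refine ⟨m, -p, ?_, ?_⟩
  · rw [map_neg, mul_neg]
  · refine pexp_congr hp.neg fun τ => ?_
    show (-f τ) * uParam M τ ^ m = -(f τ * uParam M τ ^ m)
    ring

theorem sub [NeZero M] (hf : HasExp M f a) (hg : HasExp M g b) : HasExp M (f - g) (a - b) := by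
  rw [sub_eq_add_neg, sub_eq_add_neg]
  exact add hf (neg hg)

/-- the function determines the series -/
theorem unique [NeZero M] (hf : HasExp M f a) (hf' : HasExp M f b) : a = b := by
  obtain ⟨m, p, rfl, hp⟩ := hf
  obtain ⟨n, q, rfl, hq⟩ := hf'
  have h1 := shift_hasPExp hp n
  have h2 := shift_hasPExp hq m
  rw [add_comm n m] at h2
  have e := HasPExp.coeff_unique h1 h2
  rw [shift_eq m n p, shift_eq n m q, add_comm n m, e]

/-- the series determines the function -/
theorem fun_unique [NeZero M] (hf : HasExp M f a) (hg : HasExp M g a) : f = g := by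
  obtain ⟨m, p, rfl, hp⟩ := hf
  obtain ⟨n, q, hq', hq⟩ := hg
  have h1 := shift_hasPExp hp n
  have h2 := shift_hasPExp hq m
  rw [add_comm n m] at h2
  rw [shift_eq m n p, shift_eq n m q, add_comm n m] at hq'
  have e : PowerSeries.X ^ n * p = PowerSeries.X ^ m * q :=
    HahnSeries.ofPowerSeries_injective (single_mul_cancel _ hq')
  rw [e] at h1
  have h3 := HasPExp.fun_unique h1 h2
  ext τ
  have h4 := congrFun h3 τ
  have h5 : uParam M τ ^ (m + n) ≠ 0 := pow_ne_zero _ (uParam_ne_zero M τ)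
  exact mul_right_cancel₀ h5 h4

/-- Change of level: an expansion in `u_M` is an expansion in `u_{M k}` after `u ↦ u^k`. -/
theorem qExpand [NeZero M] (k : ℕ) [NeZero k] [NeZero (M * k)] (hf : HasExp M f a) :
    HasExp (M * k) f (ModularCurve.qExpand Kbar k a) := by
  obtain ⟨m, p, rfl, hp⟩ := hf
  refine ⟨k * m, expandPS k p, ?_, ?_⟩
  · have e : (k : ℤ) * -(m : ℤ) = -((k * m : ℕ) : ℤ) := by push_cast; ring
    rw [map_mul, ModularCurve.qExpand_single, qExpand_ofPowerSeries, e]
  · refine pexp_congr (hasPExp_expandPS k hp) fun τ => ?_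
    show f τ * uParam (M * k) τ ^ (k * m) = f τ * uParam M τ ^ m
    rw [pow_mul, uParam_mul_pow]


/-- The expansion of `T • f`, `(T • f)(τ) = f(τ - 1)`: the `n`-th coefficient is multiplied by
`ζ⁻ⁿ`, where `iota ζ = exp(2πi/M)`. In particular the order does not change. -/
theorem T_smul [NeZero M] (hf : HasExp M f a) :
    ∃ b : LaurentSeries Kbar, HasExp M (ModularGroup.T • f) b ∧
      ∃ ζ : Kbar, iota ζ = Complex.exp (2 * Real.pi * Complex.I / M) ∧
        ∀ n : ℤ, b.coeff n = ζ⁻¹ ^ n * a.coeff n := by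
  obtain ⟨m, p, rfl, hp⟩ := hf
  obtain ⟨ζ, hζ⟩ := exists_iota_eq_exp M
  have hω := norm_exp_two_pi_div M
  have hω0 : Complex.exp (2 * Real.pi * Complex.I / M) ≠ 0 := Complex.exp_ne_zero _
  have hζ0 : ζ ≠ 0 := by
    rintro rfl
    rw [map_zero] at hζ
    exact hω0 hζ.symm
  have hnζ : ‖iota ζ‖ = 1 := by rw [hζ, hω]
  refine ⟨HahnSeries.single (-(m : ℤ)) (1 : Kbar) * HahnSeries.ofPowerSeries ℤ Kbar
      (PowerSeries.mk fun n => ζ ^ m * ζ⁻¹ ^ n * PowerSeries.coeff n p),
    ⟨m, _, rfl, ?_⟩, ζ, hζ, ?_⟩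
  · intro τ
    have hτ : ModularGroup.T • (ModularGroup.T⁻¹ • τ) = τ := smul_inv_smul _ _
    have hu : uParam M τ = iota ζ * uParam M (ModularGroup.T⁻¹ • τ) := by
      conv_lhs => rw [← hτ]
      rw [uParam_T_smul, hζ]
    obtain ⟨h1, h2⟩ := hp (ModularGroup.T⁻¹ • τ)
    have hc : ∀ n : ℕ, iota (PowerSeries.coeff n
        (PowerSeries.mk fun n => ζ ^ m * ζ⁻¹ ^ n * PowerSeries.coeff n p)) * uParam M τ ^ n
        = iota ζ ^ m * (iota (PowerSeries.coeff n p) * uParam M (ModularGroup.T⁻¹ • τ) ^ n) := by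
      intro n
      rw [PowerSeries.coeff_mk, hu, map_mul, map_mul, map_pow, map_pow, map_inv₀, mul_pow]
      have : iota ζ ≠ 0 := by rw [hζ]; exact hω0
      have hinv : (iota ζ)⁻¹ ^ n * iota ζ ^ n = 1 := by
        rw [← mul_pow, inv_mul_cancel₀ this, one_pow]
      linear_combination (iota ζ ^ m * iota (PowerSeries.coeff n p) *
        uParam M (ModularGroup.T⁻¹ • τ) ^ n) * hinv
    constructor
    · have e : (fun n : ℕ => ‖iota (PowerSeries.coeff n
          (PowerSeries.mk fun n => ζ ^ m * ζ⁻¹ ^ n * PowerSeries.coeff n p))‖ * ‖uParam M τ‖ ^ n)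
          = fun n : ℕ => ‖iota (PowerSeries.coeff n p)‖ *
              ‖uParam M (ModularGroup.T⁻¹ • τ)‖ ^ n := by
        funext n
        rw [← norm_pow, ← norm_mul, hc n, norm_mul, norm_pow, hnζ, one_pow, one_mul, norm_mul,
          norm_pow]
      rw [e]
      exact h1
    · have e : (fun n : ℕ => iota (PowerSeries.coeff n
          (PowerSeries.mk fun n => ζ ^ m * ζ⁻¹ ^ n * PowerSeries.coeff n p)) * uParam M τ ^ n)
          = fun n : ℕ => iota ζ ^ m *
              (iota (PowerSeries.coeff n p) * uParam M (ModularGroup.T⁻¹ • τ) ^ n) :=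
        funext hc
      rw [e]
      have h2' : HasSum
          (fun n => iota (PowerSeries.coeff n p) * uParam M (ModularGroup.T⁻¹ • τ) ^ n)
          (f (ModularGroup.T⁻¹ • τ) * uParam M (ModularGroup.T⁻¹ • τ) ^ m) := h2
      have h3 := h2'.mul_left (iota ζ ^ m)
      have e2 : iota ζ ^ m * (f (ModularGroup.T⁻¹ • τ) * uParam M (ModularGroup.T⁻¹ • τ) ^ m)
          = (ModularGroup.T • f) τ * uParam M τ ^ m := by
        rw [Fun.sl_smul_apply, hu, mul_pow]; ring
      show HasSum _ ((ModularGroup.T • f) τ * uParam M τ ^ m)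
      rw [← e2]
      exact h3
  · intro n
    rw [HahnSeries.coeff_single_mul, HahnSeries.coeff_single_mul, one_mul, one_mul]
    by_cases hn : n - -(m : ℤ) < 0
    · rw [ModularCurve.ofPowerSeries_coeff_of_neg _ hn, ModularCurve.ofPowerSeries_coeff_of_neg _ hn,
        mul_zero]
    · rw [not_lt] at hn
      obtain ⟨j, hj⟩ := Int.eq_ofNat_of_zero_le hn
      rw [hj, HahnSeries.ofPowerSeries_apply_coeff, HahnSeries.ofPowerSeries_apply_coeff,
        PowerSeries.coeff_mk]
      have hn' : n = (j : ℤ) - (m : ℤ) := by omega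
      rw [hn', zpow_sub₀ (inv_ne_zero hζ0), zpow_natCast, zpow_natCast, inv_pow, inv_pow,
        div_eq_mul_inv, inv_inv]
      ring

end HasExp

end Fermat.Agent.S24
end
end MergeWrap_S24_Expansion

section MergeWrap_S24_JFun -- from S24/JFun.lean

set_option autoImplicit false

noncomputable section

namespace Fermat.Agent.S24

open UpperHalfPlane
open scoped MatrixGroups Manifold

/-- Holomorphic functions on the upper half plane. -/
def IsHol (f : Fun) : Prop := MDifferentiable 𝓘(ℂ) 𝓘(ℂ) (f : ℍ → ℂ)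

theorem jFun_apply (τ : ℍ) :
    jFun τ = ModularForm.E₄ τ ^ 3 / ModularForm.discriminant τ := rfl

theorem isHol_jFun : IsHol jFun := by
  show MDifferentiable 𝓘(ℂ) 𝓘(ℂ)
    (fun τ : ℍ => ModularForm.E₄ τ ^ 3 / ModularForm.discriminant τ)
  rw [UpperHalfPlane.mdifferentiable_iff]
  have h4 := (UpperHalfPlane.mdifferentiable_iff).1 (ModularFormClass.holo ModularForm.E₄)
  have hΔ := (UpperHalfPlane.mdifferentiable_iff).1 (ModularFormClass.holo CuspForm.discriminant)
  have h : DifferentiableOn ℂ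
      (fun z => ((ModularForm.E₄ : ℍ → ℂ) ∘ ofComplex) z ^ 3 /
        ((CuspForm.discriminant : ℍ → ℂ) ∘ ofComplex) z) upperHalfPlaneSet := by
    refine (h4.pow 3).div hΔ ?_
    intro z _
    exact ModularForm.discriminant_ne_zero _
  exact h

/-- `j (γ τ) = j τ`. -/
theorem jFun_smul_apply (γ : SL(2, ℤ)) (τ : ℍ) : jFun (γ • τ) = jFun τ := by
  have h4 : ModularForm.E₄ (γ • τ) = denom γ τ ^ (4 : ℤ) * ModularForm.E₄ τ :=
    SlashInvariantForm.slash_action_eqn'' (Γ := 𝒮ℒ) ModularForm.E₄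
      (γ := (γ : GL (Fin 2) ℝ)) (show (γ : GL (Fin 2) ℝ) ∈ 𝒮ℒ from ⟨γ, rfl⟩) τ
  have hΔ : CuspForm.discriminant (γ • τ) = denom γ τ ^ (12 : ℤ) * CuspForm.discriminant τ :=
    SlashInvariantForm.slash_action_eqn'' (Γ := 𝒮ℒ) CuspForm.discriminant
      (γ := (γ : GL (Fin 2) ℝ)) (show (γ : GL (Fin 2) ℝ) ∈ 𝒮ℒ from ⟨γ, rfl⟩) τ
  rw [jFun_apply, jFun_apply, h4]
  rw [CuspForm.coe_discriminant] at hΔ
  rw [hΔ]
  have hd : denom γ τ ≠ 0 := denom_ne_zero γ τ
  have hΔ0 := ModularForm.discriminant_ne_zero τ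
  have e : (denom γ τ ^ (4 : ℤ)) ^ 3 = denom γ τ ^ (12 : ℤ) := by
    rw [← zpow_natCast, ← zpow_mul]; norm_num
  rw [mul_pow, e]
  field_simp

theorem jFun_smul (γ : SL(2, ℤ)) : γ • jFun = jFun := by
  ext τ
  rw [Fun.sl_smul_apply]
  exact jFun_smul_apply γ⁻¹ τ

/-- `q · j(τ) = ∑ jNumₙ qⁿ`, absolutely convergent, `q = exp(2πiτ)`. -/
theorem hasPExp_jFun :
    HasPExp 1 (fun τ => jFun τ * uParam 1 τ)
      (PowerSeries.map (Int.castRingHom Kbar) ModularCurve.jNum) := by
  intro τ
  have h := Fermat.Agent.S24JFun.hasSum_jq0 τ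
  have e1 : uParam 1 τ = Function.Periodic.qParam 1 (τ : ℂ) := by
    simp [uParam]
  have e2 : ∀ n : ℕ, iota (PowerSeries.coeff n
      (PowerSeries.map (Int.castRingHom Kbar) ModularCurve.jNum))
      = ((PowerSeries.coeff n ModularCurve.jNum : ℤ) : ℂ) := by
    intro n
    rw [PowerSeries.coeff_map]
    simp
  simp only [e1, e2]
  exact h

end Fermat.Agent.S24
end
end MergeWrap_S24_JFun
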