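import Mathlib
import Fermat.Agent.S20.PermEigen
import Fermat.Agent.MU.S20.Cosets
import Fermat.Agent.S24.Interface
import Fermat.Agent.MU.S21.GroupFinal

section MergeWrap_S24_CombSign -- from S24/CombSign.lean

set_option autoImplicit false
set_option linter.unusedSectionVars false

noncomputable section

namespace Fermat.Agent.S24

open Equiv Equiv.Perm

section Sign

variable {X : Type} [Fintype X] [DecidableEq X]

/-- the class map: fixed points go to themselves, the other points to their cycle. -/
def cycleClass (σ : Perm X) (x : X) : (Function.fixedPoints σ) ⊕ σ.cycleFactorsFinset :=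
  if h : σ x = x then Sum.inl ⟨x, h⟩
  else Sum.inr ⟨σ.cycleOf x, cycleOf_mem_cycleFactorsFinset_iff.2 (mem_support.2 h)⟩

lemma cycleClass_eq_iff (σ : Perm X) (x y : X) :
    cycleClass σ x = cycleClass σ y ↔ σ.SameCycle x y := by
  unfold cycleClass
  by_cases hx : σ x = x
  · by_cases hy : σ y = y
    · simp only [hx, hy, dite_true, Sum.inl.injEq]
      constructor
      · intro h
        have h' : x = y := congrArg Subtype.val h
        rw [h']
      · rintro ⟨i, hi⟩
        apply Subtype.ext
        show x = y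
        rw [← hi]
        exact ((zpow_apply_eq_self_of_apply_eq_self hx i)).symm
    · simp only [hx, hy, dite_true, dite_false, reduceCtorEq, false_iff]
      intro h
      exact hy (h.apply_eq_self_iff.1 hx)
  · by_cases hy : σ y = y
    · simp only [hx, hy, dite_true, dite_false, reduceCtorEq, false_iff]
      intro h
      exact hx (h.apply_eq_self_iff.2 hy)
    · simp only [hx, hy, dite_false, Sum.inr.injEq, Subtype.mk.injEq]
      exact (sameCycle_iff_cycleOf_eq_of_mem_support (mem_support.2 hx) (mem_support.2 hy)).symm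

lemma cycleClass_surjective (σ : Perm X) : Function.Surjective (cycleClass σ) := by
  rintro (⟨x, hx⟩ | ⟨c, hc⟩)
  · refine ⟨x, ?_⟩
    have hx' : σ x = x := hx
    simp [cycleClass, hx']
  · have hcyc := (mem_cycleFactorsFinset_iff.1 hc).1
    obtain ⟨a, ha⟩ := hcyc.nonempty_support
    have ha' : a ∈ σ.support := mem_cycleFactorsFinset_support_le hc ha
    refine ⟨a, ?_⟩
    have h1 : ¬ σ a = a := mem_support.1 ha'
    have h2 : c = σ.cycleOf a := cycle_is_cycleOf ha hc
    simp only [cycleClass, h1, dite_false, Sum.inr.injEq, Subtype.mk.injEq]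
    exact h2.symm

/-- the classes of `SameCycle` are the fixed points and the cycles. -/
def sameCycleQuotEquiv (σ : Perm X) :
    Quotient (SameCycle.setoid σ) ≃ (Function.fixedPoints σ) ⊕ σ.cycleFactorsFinset :=
  Equiv.ofBijective
    (Quotient.lift (cycleClass σ) (fun x y h => (cycleClass_eq_iff σ x y).2 h))
    ⟨by
      rintro ⟨x⟩ ⟨y⟩ h
      exact Quotient.sound ((cycleClass_eq_iff σ x y).1 h),
     by
      intro z
      obtain ⟨x, rfl⟩ := cycleClass_surjective σ z
      exact ⟨Quotient.mk _ x, rfl⟩⟩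

lemma card_sameCycle_quotient (σ : Perm X) :
    Nat.card (Quotient (SameCycle.setoid σ)) + σ.cycleType.sum
      = Fintype.card X + Multiset.card σ.cycleType := by
  classical
  rw [Nat.card_congr (sameCycleQuotEquiv σ), Nat.card_eq_fintype_card, Fintype.card_sum,
    card_fixedPoints, Fintype.card_coe, cycleType_def, Multiset.card_map]
  have := sum_cycleType_le σ
  rw [cycleType_def] at this
  have h2 : Multiset.card σ.cycleFactorsFinset.val = σ.cycleFactorsFinset.card := rfl
  omega

/-- the sign of a permutation is `(-1) ^ (n + number of orbits)`. -/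
lemma sign_eq_neg_one_pow (σ : Perm X) :
    Perm.sign σ = (-1 : ℤˣ) ^ (Fintype.card X + Nat.card (Quotient (SameCycle.setoid σ))) := by
  rw [sign_of_cycleType]
  have h := card_sameCycle_quotient σ
  have h2 : Fintype.card X + Nat.card (Quotient (SameCycle.setoid σ)) + 2 * σ.cycleType.sum
      = σ.cycleType.sum + Multiset.card σ.cycleType + 2 * Fintype.card X := by omega
  have h3 : ((-1 : ℤˣ) ^ (Fintype.card X + Nat.card (Quotient (SameCycle.setoid σ))))
      * (-1 : ℤˣ) ^ (2 * σ.cycleType.sum)
      = (-1 : ℤˣ) ^ (σ.cycleType.sum + Multiset.card σ.cycleType)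
        * (-1 : ℤˣ) ^ (2 * Fintype.card X) := by
    rw [← pow_add, ← pow_add, h2]
  simpa [pow_mul] using h3.symm

end Sign

end Fermat.Agent.S24

namespace Fermat.Agent.S24

open Equiv Equiv.Perm

section Orbits

variable {G : Type*} [Group G] {X : Type} [Fintype X] [DecidableEq X] [MulAction G X]

lemma toPerm_zpow_apply (g : G) (i : ℤ) (x : X) :
    ((MulAction.toPerm g : Perm X) ^ i) x = g ^ i • x := by
  have h : (MulAction.toPerm g : Perm X) ^ i = MulAction.toPerm (g ^ i) :=
    (map_zpow (MulAction.toPermHom G X) g i).symm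
  rw [h]
  rfl

/-- orbits of `⟨g⟩` are the `SameCycle` classes of the permutation `x ↦ g • x`. -/
def orbitQuotEquiv (g : G) :
    MulAction.orbitRel.Quotient (Subgroup.zpowers g) X
      ≃ Quotient (SameCycle.setoid (MulAction.toPerm g : Perm X)) :=
  Quotient.congr (Equiv.refl X) (by
    intro x y
    show x ∈ MulAction.orbit (Subgroup.zpowers g) y ↔ SameCycle (MulAction.toPerm g : Perm X) x y
    constructor
    · rintro ⟨⟨t, ht⟩, rfl⟩
      obtain ⟨k, rfl⟩ := Subgroup.mem_zpowers_iff.mp ht
      refine ⟨-k, ?_⟩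
      rw [toPerm_zpow_apply]
      show g ^ (-k) • (g ^ k • y) = y
      rw [smul_smul, ← zpow_add]
      simp
    · rintro ⟨i, hi⟩
      rw [toPerm_zpow_apply] at hi
      refine ⟨⟨g ^ (-i), Subgroup.zpow_mem_zpowers g _⟩, ?_⟩
      show g ^ (-i) • y = x
      rw [← hi, smul_smul, ← zpow_add]
      simp)

lemma sign_toPerm (g : G) :
    Perm.sign (MulAction.toPerm g : Perm X)
      = (-1 : ℤˣ) ^ (Fintype.card X
          + Nat.card (MulAction.orbitRel.Quotient (Subgroup.zpowers g) X)) := by
  rw [sign_eq_neg_one_pow, Nat.card_congr (orbitQuotEquiv (X := X) g)]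

lemma neg_one_pow_eq_iff (a b : ℕ) : (-1 : ℤˣ) ^ a = (-1 : ℤˣ) ^ b ↔ Even (a + b) := by
  rcases Nat.even_or_odd a with ha | ha <;> rcases Nat.even_or_odd b with hb | hb
  · simp [ha.neg_one_pow, hb.neg_one_pow, ha.add hb]
  · have : ¬ Even (a + b) := by
      rw [Nat.not_even_iff_odd]; exact ha.add_odd hb
    simp [ha.neg_one_pow, hb.neg_one_pow, this]
  · have : ¬ Even (a + b) := by
      rw [Nat.not_even_iff_odd]; exact ha.add_even hb
    simp [ha.neg_one_pow, hb.neg_one_pow, this]
  · simp [ha.neg_one_pow, hb.neg_one_pow, ha.add_odd hb]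

/-- parity of the orbit counts of `s`, `t`, `s * t`. -/
theorem even_card_add_orbits (s t : G) :
    Even (Fintype.card X
      + Nat.card (MulAction.orbitRel.Quotient (Subgroup.zpowers s) X)
      + Nat.card (MulAction.orbitRel.Quotient (Subgroup.zpowers (s * t)) X)
      + Nat.card (MulAction.orbitRel.Quotient (Subgroup.zpowers t) X)) := by
  have h1 : (MulAction.toPerm (s * t) : Perm X) = MulAction.toPerm s * MulAction.toPerm t :=
    map_mul (MulAction.toPermHom G X) s t
  have h2 := congrArg Perm.sign h1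
  rw [map_mul, sign_toPerm, sign_toPerm, sign_toPerm, ← pow_add, neg_one_pow_eq_iff] at h2
  obtain ⟨k, hk⟩ := h2
  refine ⟨k - Fintype.card X, ?_⟩
  omega

end Orbits

end Fermat.Agent.S24
end
end MergeWrap_S24_CombSign

section MergeWrap_S24_Comb -- from S24/Comb.lean

set_option autoImplicit false
set_option linter.unusedSectionVars false

noncomputable section

namespace Fermat.Agent.S24

open Module CongruenceSubgroup
open scoped MatrixGroups

section Abstract

variable {G : Type*} [Group G] {X : Type} [Fintype X] [DecidableEq X] [MulAction G X]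

lemma pull_mem_permEigen (g : G) (F : MulAction.orbitRel.Quotient (Subgroup.zpowers g) X → ℂ) :
    (fun x : X => F (Quotient.mk'' x))
      ∈ Fermat.Agent.S20.permEigen (MulAction.toPerm g : Equiv.Perm X) 1 := by
  intro x
  simp only [MulAction.toPerm_apply, one_mul]
  congr 1
  apply Quotient.sound'
  exact ⟨⟨g, Subgroup.mem_zpowers g⟩, rfl⟩

/-- pull back of functions on the orbit space. -/
def orbitFunMap (g : G) :
    (MulAction.orbitRel.Quotient (Subgroup.zpowers g) X → ℂ) →ₗ[ℂ]
      Fermat.Agent.S20.permEigen (MulAction.toPerm g : Equiv.Perm X) 1 where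
  toFun F := ⟨fun x => F (Quotient.mk'' x), pull_mem_permEigen g F⟩
  map_add' F F' := rfl
  map_smul' c F := rfl

lemma orbitFunMap_bijective (g : G) : Function.Bijective (orbitFunMap (X := X) g) := by
  constructor
  · intro F F' h
    funext ω
    obtain ⟨x, rfl⟩ := Quotient.mk''_surjective ω
    have := congrArg (fun v : Fermat.Agent.S20.permEigen (MulAction.toPerm g : Equiv.Perm X) 1 =>
      (v : X → ℂ) x) h
    exact this
  · rintro ⟨v, hv⟩
    have hv' : ∀ x, v (g • x) = v x := by
      intro x
      have := hv x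
      simpa using this
    have hinv : ∀ x, v (g⁻¹ • x) = v x := by
      intro x
      have := hv' (g⁻¹ • x)
      rw [smul_inv_smul] at this
      exact this.symm
    have hz : ∀ (k : ℤ) (x : X), v (g ^ k • x) = v x := by
      intro k
      induction k using Int.induction_on with
      | zero => intro x; simp
      | succ n ih =>
        intro x
        rw [zpow_add_one, mul_smul, ih, hv']
      | pred n ih =>
        intro x
        rw [zpow_sub_one, mul_smul, ih, hinv]
    refine ⟨Quotient.lift v ?_, ?_⟩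
    · rintro a b ⟨⟨t, ht⟩, rfl⟩
      obtain ⟨k, rfl⟩ := Subgroup.mem_zpowers_iff.mp ht
      exact hz k b
    · apply Subtype.ext
      funext x
      rfl

/-- invariant functions are the functions on the orbit space. -/
def orbitFunEquiv (g : G) :
    (MulAction.orbitRel.Quotient (Subgroup.zpowers g) X → ℂ) ≃ₗ[ℂ]
      Fermat.Agent.S20.permEigen (MulAction.toPerm g : Equiv.Perm X) 1 :=
  LinearEquiv.ofBijective (orbitFunMap g) (orbitFunMap_bijective g)

lemma card_orbits_eq_finrank (g : G) :
    Nat.card (MulAction.orbitRel.Quotient (Subgroup.zpowers g) X)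
      = finrank ℂ (Fermat.Agent.S20.permEigen (MulAction.toPerm g : Equiv.Perm X) 1) := by
  classical
  rw [← (orbitFunEquiv (X := X) g).finrank_eq, Module.finrank_fintype_fun_eq_card,
    Nat.card_eq_fintype_card]

lemma two_mul_card_orbits (g : G) (hg : ∀ x : X, g • g • x = x) :
    2 * Nat.card (MulAction.orbitRel.Quotient (Subgroup.zpowers g) X)
      = Fintype.card X + Fintype.card {x : X // g • x = x} := by
  rw [card_orbits_eq_finrank]
  have hσ : MulAction.toPerm g * MulAction.toPerm g = (1 : Equiv.Perm X) := by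
    ext x; simp [hg]
  exact Fermat.Agent.S20.finrank_permEigen_two_one (MulAction.toPerm g : Equiv.Perm X) hσ

lemma three_mul_card_orbits (g : G) (hg : ∀ x : X, g • g • g • x = x) :
    3 * Nat.card (MulAction.orbitRel.Quotient (Subgroup.zpowers g) X)
      = Fintype.card X + 2 * Fintype.card {x : X // g • x = x} := by
  rw [card_orbits_eq_finrank]
  have hσ : MulAction.toPerm g * MulAction.toPerm g * MulAction.toPerm g
      = (1 : Equiv.Perm X) := by
    ext x; simp [hg]
  exact Fermat.Agent.S20.finrank_permEigen_three_one (MulAction.toPerm g : Equiv.Perm X) hσ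

end Abstract

section Concrete

open Fermat.Agent.S21 in
lemma smul_S_S (Γ : Subgroup SL(2, ℤ)) (hneg : (-1 : SL(2, ℤ)) ∈ Γ) (x : SL(2, ℤ) ⧸ Γ) :
    ModularGroup.S • ModularGroup.S • x = x := by
  obtain ⟨g, rfl⟩ := QuotientGroup.mk_surjective x
  rw [smul_smul, sl2_S_mul_S]
  show (((-1 : SL(2, ℤ)) * g : SL(2, ℤ)) : SL(2, ℤ) ⧸ Γ) = g
  rw [sl2_neg_one_central, QuotientGroup.eq]
  simpa using hneg

open Fermat.Agent.S21 in
lemma smul_ST_ST_ST (Γ : Subgroup SL(2, ℤ)) (hneg : (-1 : SL(2, ℤ)) ∈ Γ) (x : SL(2, ℤ) ⧸ Γ) :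
    (ModularGroup.S * ModularGroup.T) • (ModularGroup.S * ModularGroup.T) •
      (ModularGroup.S * ModularGroup.T) • x = x := by
  obtain ⟨g, rfl⟩ := QuotientGroup.mk_surjective x
  rw [smul_smul, smul_smul, sl2_ST_cube]
  show (((-1 : SL(2, ℤ)) * g : SL(2, ℤ)) : SL(2, ℤ) ⧸ Γ) = g
  rw [sl2_neg_one_central, QuotientGroup.eq]
  simpa using hneg

theorem index_Gamma0 (N : ℕ) [NeZero N] : (Gamma0 N).index = ModularCurve.dedekindPsi N :=
  Fermat.Agent.S20.card_cosetX N

theorem two_mul_orbCount_S (N : ℕ) [NeZero N] :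
    2 * orbCount (Gamma0 N) ModularGroup.S
      = ModularCurve.dedekindPsi N + ModularCurve.nuTwo N := by
  classical
  letI : Fintype (SL(2, ℤ) ⧸ Gamma0 N) := Fintype.ofFinite _
  have h := two_mul_card_orbits (X := SL(2, ℤ) ⧸ Gamma0 N) ModularGroup.S
    (smul_S_S (Gamma0 N) (Fermat.Agent.S21.neg_one_mem_Gamma0 N))
  have h1 := Fermat.Agent.S20.card_cosetX N
  have h2 := Fermat.Agent.S20.card_fixedBy_S N
  simp only [Fermat.Agent.S20.CosetX] at h1 h2
  have h3 : Nat.card (MulAction.fixedBy (SL(2, ℤ) ⧸ Gamma0 N) ModularGroup.S)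
      = Fintype.card {x : SL(2, ℤ) ⧸ Gamma0 N // ModularGroup.S • x = x} := by
    rw [← Nat.card_eq_fintype_card]
    rfl
  rw [Nat.card_eq_fintype_card] at h1
  have h' : 2 * orbCount (Gamma0 N) ModularGroup.S
      = Fintype.card (SL(2, ℤ) ⧸ Gamma0 N)
        + Fintype.card {x : SL(2, ℤ) ⧸ Gamma0 N // ModularGroup.S • x = x} := h
  rw [h', h1, ← h3, h2]

theorem three_mul_orbCount_ST (N : ℕ) [NeZero N] :
    3 * orbCount (Gamma0 N) (ModularGroup.S * ModularGroup.T)
      = ModularCurve.dedekindPsi N + 2 * ModularCurve.nuThree N := by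
  classical
  letI : Fintype (SL(2, ℤ) ⧸ Gamma0 N) := Fintype.ofFinite _
  have h := three_mul_card_orbits (X := SL(2, ℤ) ⧸ Gamma0 N) (ModularGroup.S * ModularGroup.T)
    (smul_ST_ST_ST (Gamma0 N) (Fermat.Agent.S21.neg_one_mem_Gamma0 N))
  have h1 := Fermat.Agent.S20.card_cosetX N
  have h2 := Fermat.Agent.S20.card_fixedBy_ST N
  simp only [Fermat.Agent.S20.CosetX] at h1 h2
  have h3 : Nat.card (MulAction.fixedBy (SL(2, ℤ) ⧸ Gamma0 N) (ModularGroup.S * ModularGroup.T))
      = Fintype.card {x : SL(2, ℤ) ⧸ Gamma0 N // (ModularGroup.S * ModularGroup.T) • x = x} := by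
    rw [← Nat.card_eq_fintype_card]
    rfl
  rw [Nat.card_eq_fintype_card] at h1
  have h' : 3 * orbCount (Gamma0 N) (ModularGroup.S * ModularGroup.T)
      = Fintype.card (SL(2, ℤ) ⧸ Gamma0 N)
        + 2 * Fintype.card {x : SL(2, ℤ) ⧸ Gamma0 N //
            (ModularGroup.S * ModularGroup.T) • x = x} := h
  rw [h', h1, ← h3, h2]

theorem orbCount_T (N : ℕ) [NeZero N] :
    orbCount (Gamma0 N) ModularGroup.T = ModularCurve.cuspCount N :=
  Fermat.Agent.S20.card_orbits_T N

/-- parity of the orbit counts. -/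
theorem even_index_add_orbCount (N : ℕ) [NeZero N] :
    Even ((Gamma0 N).index + orbCount (Gamma0 N) ModularGroup.S
      + orbCount (Gamma0 N) (ModularGroup.S * ModularGroup.T)
      + orbCount (Gamma0 N) ModularGroup.T) := by
  classical
  letI : Fintype (SL(2, ℤ) ⧸ Gamma0 N) := Fintype.ofFinite _
  have h := even_card_add_orbits (X := SL(2, ℤ) ⧸ Gamma0 N) ModularGroup.S ModularGroup.T
  have h1 : (Gamma0 N).index = Fintype.card (SL(2, ℤ) ⧸ Gamma0 N) := by
    rw [Subgroup.index, Nat.card_eq_fintype_card]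
  rw [h1]
  exact h

/-- COMB: `genusFormula N` is a natural number `g`, and the Riemann–Hurwitz sum is `2 g - 2`. -/
theorem comb_degree (N : ℕ) [NeZero N] :
    ∃ g : ℕ, (g : ℚ) = ModularCurve.genusFormula N ∧
      (((Gamma0 N).index : ℤ) - orbCount (Gamma0 N) ModularGroup.S)
        + (((Gamma0 N).index : ℤ) - orbCount (Gamma0 N) (ModularGroup.S * ModularGroup.T))
        - (Gamma0 N).index - orbCount (Gamma0 N) ModularGroup.T = 2 * (g : ℤ) - 2 := by
  have hpar := even_index_add_orbCount N
  have hn := index_Gamma0 N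
  have ha := two_mul_orbCount_S N
  have hb := three_mul_orbCount_ST N
  have hc := orbCount_T N
  have hD := Fermat.Agent.S21.finrank_parabolicHoms_counts N
  set n := (Gamma0 N).index with hn'
  set a := orbCount (Gamma0 N) ModularGroup.S with ha'
  set b := orbCount (Gamma0 N) (ModularGroup.S * ModularGroup.T) with hb'
  set c := orbCount (Gamma0 N) ModularGroup.T with hc'
  obtain ⟨k, hk⟩ := hpar
  -- `m = n + 2 - a - b - c` is a nonnegative even number
  have hle : a + b + c ≤ n + 2 := by omega
  have hg : ∃ g : ℕ, n + 2 = a + b + c + 2 * g := by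
    refine ⟨k + 1 - (a + b + c), ?_⟩
    omega
  obtain ⟨g, hg⟩ := hg
  refine ⟨g, ?_, ?_⟩
  · unfold ModularCurve.genusFormula
    have e1 : ((n : ℚ)) = ModularCurve.dedekindPsi N := by exact_mod_cast hn
    have e2 : (2 : ℚ) * a = ModularCurve.dedekindPsi N + ModularCurve.nuTwo N := by
      exact_mod_cast ha
    have e3 : (3 : ℚ) * b = ModularCurve.dedekindPsi N + 2 * ModularCurve.nuThree N := by
      exact_mod_cast hb
    have e4 : (c : ℚ) = ModularCurve.cuspCount N := by exact_mod_cast hc
    have e5 : (n : ℚ) + 2 = a + b + c + 2 * g := by exact_mod_cast hg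
    linarith
  · omega

end Concrete

end Fermat.Agent.S24
end
end MergeWrap_S24_Comb
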