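import Mathlib
import Fermat.Agent.MU.S24.Invariants
import Fermat.Agent.MU.S24.InvariantsFrac
import Fermat.Agent.MU.S24.GensExp
import Fermat.Agent.MU.S24.Periods

section MergeWrap_S24_InvariantsFinal -- from S24/InvariantsFinal.lean

set_option autoImplicit false

noncomputable section

namespace Fermat.Agent.S24Inv

open Fermat.Agent.S24
open UpperHalfPlane
open scoped MatrixGroups

/-- **AN-D, AL-level.** An `SL(2,ℤ)`-invariant element of `AL M` is a polynomial in `j`. -/
theorem exists_aeval_eq_of_invariant' (M : ℕ) [NeZero M] (f : AL M)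
    (hf : ∀ γ : SL(2, ℤ), γ • f = f) :
    ∃ P : Polynomial Kbar, Polynomial.aeval (jAL M) P = f :=
  exists_aeval_eq_of_invariant_of M (fun _ hg => exists_hasExp_of_mem_gens M hg) f hf

/-- **AN-D, LL-level.** An `SL(2,ℤ)`-invariant element of `LL M` is a rational function of `j`. -/
theorem mem_adjoin_jLL_of_invariant' (M : ℕ) [NeZero M] (x : LL M)
    (hx : ∀ γ : SL(2, ℤ), γ • x = x) :
    x ∈ IntermediateField.adjoin Kbar {jLL M} :=
  mem_adjoin_jLL_of_invariant_of M (fun γ hγ y => Gamma_smul_eq M γ hγ y)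
    (exists_aeval_eq_of_invariant' M) x hx

end Fermat.Agent.S24Inv
end
end MergeWrap_S24_InvariantsFinal
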