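import Mathlib
import Fermat.Prelude.Def_AlgebraicCurve_CanonicalDivisor
import Fermat.Agent.S24.GaloisFibre
import Fermat.Agent.S24.Decomposition
import Fermat.Agent.S24.GaloisDatum

section MergeWrap_S24_Orbits -- from S24/Orbits.lean

set_option autoImplicit false

/-!
# S24, ALG-G: counting primes by orbits

* `card_eq_card_of_ker_eq` : two surjections with the same fibres have targets of the same size.
* `orbitQuot_mk_eq_iff` : equality in `D \ G / H` in terms of group elements.
* `card_primesOver_eq_card_orbits` (O1): in a tower `A → B → C` with `IsGaloisGroup G A C` and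
  `IsGaloisGroup H B C`, the number of primes of `B` over `p` is the number of orbits of the
  decomposition group of a prime `Q` of `C` over `p` on `G ⧸ H`.
* `card_orbits_eq_orbCount` (O2): transfer of the orbit count along a surjection `Γ → G`.
-/

open MulAction
open scoped Pointwise

namespace Fermat.Agent.S24Orb

/-- Two surjections from the same type with the same fibres have targets of the same size. -/
theorem card_eq_card_of_ker_eq {X Y Z : Type*} (f : X → Y) (g : X → Z)
    (hf : Function.Surjective f) (hg : Function.Surjective g)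
    (h : ∀ a b, f a = f b ↔ g a = g b) : Nat.card Y = Nat.card Z := by
  have e1 : Quotient (Setoid.ker f) ≃ Y := Setoid.quotientKerEquivOfSurjective f hf
  have e2 : Quotient (Setoid.ker g) ≃ Z := Setoid.quotientKerEquivOfSurjective g hg
  have hker : Setoid.ker f = Setoid.ker g := by
    ext a b
    exact h a b
  rw [← Nat.card_congr e1, ← Nat.card_congr e2, hker]

section GroupTheory

variable {G : Type*} [Group G]

/-- The class of `a` in `D \ G / H`. -/
def dcMk (D H : Subgroup G) (a : G) : orbitRel.Quotient D (G ⧸ H) :=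
  Quotient.mk'' (a : G ⧸ H)

theorem dcMk_surjective (D H : Subgroup G) : Function.Surjective (dcMk D H) := by
  intro x
  induction x using Quotient.inductionOn' with
  | h y =>
    induction y using QuotientGroup.induction_on with
    | H a => exact ⟨a, rfl⟩

theorem dcMk_eq_iff (D H : Subgroup G) (a b : G) :
    dcMk D H a = dcMk D H b ↔ ∃ d ∈ D, (d * b)⁻¹ * a ∈ H := by
  unfold dcMk
  rw [Quotient.eq'', orbitRel_apply, mem_orbit_iff]
  constructor
  · rintro ⟨d, hd⟩
    refine ⟨d, d.2, ?_⟩
    have : ((d : G) * b : G) = (a : G ⧸ H) := hd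
    rw [← QuotientGroup.eq]
    exact this
  · rintro ⟨d, hd, hmem⟩
    refine ⟨⟨d, hd⟩, ?_⟩
    show ((d * b : G) : G ⧸ H) = (a : G ⧸ H)
    rw [QuotientGroup.eq]
    exact hmem

/-- (O2) transfer of the orbit count along a surjection `π : Γ → G`; the right hand side is
`Fermat.Agent.S24.orbCount (H'.comap π) g` unfolded. -/
theorem card_orbits_eq_orbCount {Γ : Type*} [Group Γ] (π : Γ →* G)
    (hπ : Function.Surjective π) (H' D : Subgroup G) (g : Γ)
    (hD : D = Subgroup.zpowers (π g)) :
    Nat.card (orbitRel.Quotient D (G ⧸ H')) =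
      Nat.card (orbitRel.Quotient (Subgroup.zpowers g) (Γ ⧸ H'.comap π)) := by
  subst hD
  refine card_eq_card_of_ker_eq (fun γ : Γ => dcMk (Subgroup.zpowers (π g)) H' (π γ))
    (dcMk (Subgroup.zpowers g) (H'.comap π))
    ((dcMk_surjective _ _).comp hπ) (dcMk_surjective _ _) ?_
  intro a b
  simp only [dcMk_eq_iff]
  constructor
  · rintro ⟨d, ⟨k, rfl⟩, hmem⟩
    refine ⟨g ^ k, ⟨k, rfl⟩, ?_⟩
    rw [Subgroup.mem_comap]
    simpa using hmem
  · rintro ⟨d, ⟨k, rfl⟩, hmem⟩
    refine ⟨π g ^ k, ⟨k, rfl⟩, ?_⟩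
    rw [Subgroup.mem_comap] at hmem
    simpa using hmem

end GroupTheory

section Primes

variable {A B C G : Type*} [CommRing A] [CommRing B] [CommRing C] [Algebra A B] [Algebra B C]
    [Algebra A C] [IsScalarTower A B C] [FaithfulSMul B C]
    [Group G] [Finite G] [MulSemiringAction G C]
    [IsGaloisGroup G A C] (H : Subgroup G) [IsGaloisGroup H B C]

/-- The prime of `B` below `γ⁻¹ • Q`. -/
def belowPrime (p : Ideal A) (Q : Ideal C) [Q.IsPrime] [Q.LiesOver p] (γ : G) :
    p.primesOver B :=
  ⟨(γ⁻¹ • Q).under B, inferInstance, inferInstance⟩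


theorem belowPrime_surjective (H : Subgroup G) [IsGaloisGroup H B C]
    (p : Ideal A) (Q : Ideal C) [Q.IsPrime] [Q.LiesOver p] :
    Function.Surjective (belowPrime (B := B) (G := G) p Q) := by
  rintro ⟨P, hP, hPp⟩
  have : Algebra.IsIntegral B C := Algebra.IsInvariant.isIntegral B C H
  obtain ⟨⟨Q', hQ', hQ'P⟩⟩ := (inferInstance : Nonempty (P.primesOver C))
  have : Q'.LiesOver p := Ideal.LiesOver.trans Q' P p
  obtain ⟨σ, hσ⟩ := Algebra.IsInvariant.exists_smul_of_under_eq A C G Q Q'
    ((Ideal.over_def Q p).symm.trans (Ideal.over_def Q' p))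
  refine ⟨σ⁻¹, Subtype.ext ?_⟩
  show ((σ⁻¹)⁻¹ • Q).under B = P
  rw [inv_inv, ← hσ]
  exact (Ideal.over_def Q' P).symm

omit [FaithfulSMul B C] in
theorem belowPrime_eq_iff (H : Subgroup G) [IsGaloisGroup H B C]
    (p : Ideal A) (Q : Ideal C) [Q.IsPrime] [Q.LiesOver p] (a b : G) :
    belowPrime (B := B) p Q a = belowPrime (B := B) p Q b ↔
      ∃ d ∈ stabilizer G Q, (d * b)⁻¹ * a ∈ H := by
  rw [Subtype.ext_iff]
  show (a⁻¹ • Q).under B = (b⁻¹ • Q).under B ↔ _
  constructor
  · intro h
    obtain ⟨τ, hτ⟩ := Algebra.IsInvariant.exists_smul_of_under_eq B C H (a⁻¹ • Q) (b⁻¹ • Q) h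
    have hτ' : (τ : G) • a⁻¹ • Q = b⁻¹ • Q := hτ.symm
    refine ⟨a * (τ : G)⁻¹ * b⁻¹, ?_, ?_⟩
    · rw [mem_stabilizer_iff, mul_smul, mul_smul, ← hτ', inv_smul_smul, smul_inv_smul]
    · have : (a * (τ : G)⁻¹ * b⁻¹ * b)⁻¹ * a = (τ : G) := by group
      rw [this]
      exact τ.2
  · rintro ⟨d, hd, hmem⟩
    rw [mem_stabilizer_iff] at hd
    have ha : a⁻¹ • Q = ((d * b)⁻¹ * a)⁻¹ • b⁻¹ • Q := by
      rw [← mul_smul]
      have : ((d * b)⁻¹ * a)⁻¹ * b⁻¹ = a⁻¹ * d := by group
      rw [this, mul_smul, hd]
    rw [ha]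
    exact Ideal.under_smul B (b⁻¹ • Q) (⟨(d * b)⁻¹ * a, hmem⟩ : H)⁻¹

/-- (O1) the number of primes of `B` over `p` is the number of orbits of the decomposition group
of `Q` on `G ⧸ H`. -/
theorem card_primesOver_eq_card_orbits (H : Subgroup G) [IsGaloisGroup H B C]
    (p : Ideal A) (Q : Ideal C) [Q.IsPrime] [Q.LiesOver p] :
    Nat.card (p.primesOver B) =
      Nat.card (orbitRel.Quotient (stabilizer G Q) (G ⧸ H)) := by
  refine card_eq_card_of_ker_eq (belowPrime (B := B) (G := G) p Q) (dcMk (stabilizer G Q) H)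
    (belowPrime_surjective H p Q) (dcMk_surjective _ _) ?_
  intro a b
  rw [belowPrime_eq_iff H, dcMk_eq_iff]

end Primes

end Fermat.Agent.S24Orb
end MergeWrap_S24_Orbits

section MergeWrap_S24_ZeroPlaces -- from S24/ZeroPlaces.lean

set_option autoImplicit false

/-!
# S24, ALG-G (G2): the number of places in one fibre

`card_zeroPlaces`: the statement of `card_zeroPlaces_of_galois_datum` (AlgTargets.lean) with
`orbCount` unfolded.  Glue of
* `GaloisDatum.lean` (helper18): the finite image `G` of `Γ`, `IsGaloisGroup G K(t) L`;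
* `Orbits.lean` (helper18): primes of `B_F` over `p` ↔ orbits of the decomposition group on `G/H`;
* `Decomposition.lean`: the decomposition group of the centre of `w` is generated by `g`;
* `GaloisFibre.lean`: the rings `A = K[t] ⊆ B_F ⊆ B_L`, places ↔ primes.
-/

noncomputable section
open IntermediateField Polynomial AlgebraicCurve IsDedekindDomain
open scoped IntermediateField.algebraAdjoinAdjoin

namespace Fermat.Agent.S24Fib
open Fermat.Agent.S24Gal

variable {K F L Γ : Type*} [Field K] [IsAlgClosed K] [CharZero K]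
    [Field F] [Algebra K F] [Field L] [Algebra K L] [Algebra F L] [IsScalarTower K F L]
    [Group Γ] [MulSemiringAction Γ L] [SMulCommClass Γ K L]

/-- the algebra structure `B_F → B_L`. -/
@[reducible] def algebraBFBL (t : F) :
    Algebra (integralClosure (Algebra.adjoin K {t}) F) (integralClosure (Algebra.adjoin K {t}) L) :=
  ((IsScalarTower.toAlgHom (Algebra.adjoin K {t}) F L).mapIntegralClosure).toRingHom.toAlgebra

theorem algebraBFBL_coe (t : F) (b : integralClosure (Algebra.adjoin K {t}) F) :
    letI := algebraBFBL (K := K) (L := L) t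
    ((algebraMap (integralClosure (Algebra.adjoin K {t}) F)
      (integralClosure (Algebra.adjoin K {t}) L) b : integralClosure (Algebra.adjoin K {t}) L) : L)
      = algebraMap F L (b : F) := rfl

theorem isScalarTower_A_BF_BL (t : F) :
    letI := algebraBFBL (K := K) (L := L) t
    IsScalarTower (Algebra.adjoin K {t}) (integralClosure (Algebra.adjoin K {t}) F)
      (integralClosure (Algebra.adjoin K {t}) L) := by
  letI := algebraBFBL (K := K) (L := L) t
  refine IsScalarTower.of_algebraMap_eq fun a => ?_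
  apply Subtype.ext
  rfl

theorem isScalarTower_BF_BL_L (t : F) :
    letI := algebraBFBL (K := K) (L := L) t
    IsScalarTower (integralClosure (Algebra.adjoin K {t}) F)
      (integralClosure (Algebra.adjoin K {t}) L) L := by
  letI := algebraBFBL (K := K) (L := L) t
  refine IsScalarTower.of_algebraMap_eq fun a => ?_
  rfl

theorem faithfulSMul_BF_BL (t : F) :
    letI := algebraBFBL (K := K) (L := L) t
    FaithfulSMul (integralClosure (Algebra.adjoin K {t}) F)
      (integralClosure (Algebra.adjoin K {t}) L) := by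
  letI := algebraBFBL (K := K) (L := L) t
  rw [faithfulSMul_iff_algebraMap_injective]
  intro a b hab
  have h := congrArg Subtype.val hab
  rw [algebraBFBL_coe, algebraBFBL_coe] at h
  exact Subtype.ext ((algebraMap F L).injective h)

/-- valuation rings are integrally closed (version for a valuation). -/
theorem valuation_le_one_of_isIntegral {R : Type*} [CommRing R] [Algebra R L]
    (w : Valuation L (WithZero (Multiplicative ℤ)))
    (hR : ∀ r : R, w (algebraMap R L r) ≤ 1) {x : L} (hx : IsIntegral R x) : w x ≤ 1 := by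
  have hint : IsIntegral w.valuationSubring x := by
    obtain ⟨p, hp, hpx⟩ := hx
    let φ : R →+* w.valuationSubring :=
      (algebraMap R L).codRestrict w.valuationSubring.toSubring hR
    refine ⟨p.map φ, hp.map φ, ?_⟩
    rw [Polynomial.eval₂_map]
    have hcomp : (algebraMap w.valuationSubring L).comp φ = algebraMap R L := by
      ext r; rfl
    rw [hcomp]
    exact hpx
  obtain ⟨y, hy⟩ :=
    (IsIntegrallyClosed.isIntegral_iff (R := w.valuationSubring) (K := L)).mp hint
  rw [← hy]
  exact y.2

/-- `w ≤ 1` on `K[t]` if `w` is trivial on `K` and `w t ≤ 1`. -/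
theorem valuation_adjoin_le_one (w : Valuation L (WithZero (Multiplicative ℤ)))
    (hwK : ∀ a : K, a ≠ 0 → w (algebraMap K L a) = 1) (t : F) (hwt : w (algebraMap F L t) ≤ 1)
    (a : Algebra.adjoin K {t}) : w (algebraMap (Algebra.adjoin K {t}) L a) ≤ 1 := by
  obtain ⟨a, ha⟩ := a
  show w (algebraMap F L a) ≤ 1
  induction ha using Algebra.adjoin_induction with
  | mem x hx => rw [Set.mem_singleton_iff] at hx; rw [hx]; exact hwt
  | algebraMap c =>
    rw [← IsScalarTower.algebraMap_apply]
    rcases eq_or_ne c 0 with rfl | hc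
    · simp
    · exact (hwK c hc).le
  | add x y _ _ hx hy => rw [map_add]; exact le_trans (w.map_add _ _) (max_le hx hy)
  | mul x y _ _ hx hy => rw [map_mul, map_mul]; exact mul_le_one' hx hy


set_option maxHeartbeats 1000000 in
set_option synthInstance.maxHeartbeats 200000 in
theorem card_zeroPlaces
    (t : F) (httr : Transcendental K t)
    (hfin : ∃ Γ' : Subgroup Γ, Γ'.FiniteIndex ∧ ∀ g ∈ Γ', ∀ x : L, g • x = x)
    (ht : ∀ g : Γ, g • algebraMap F L t = algebraMap F L t)
    (hfix : ∀ x : L, (∀ g : Γ, g • x = x) →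
      x ∈ IntermediateField.adjoin K {algebraMap F L t})
    (H : Subgroup Γ)
    (hH : ∀ g : Γ, g ∈ H ↔ ∀ x : F, g • algebraMap F L x = algebraMap F L x)
    (w : Valuation L (WithZero (Multiplicative ℤ))) (s : ℕ) (g : Γ)
    (hwK : ∀ a : K, a ≠ 0 → w (algebraMap K L a) = 1)
    (hs : 0 < s)
    (hw : w (algebraMap F L t) = WithZero.exp (-(s : ℤ)))
    (hg : ∀ x, w (g • x) = w x)
    (hgs : ∀ k : ℤ, (∀ x : L, (g ^ k) • x = x) ↔ (s : ℤ) ∣ k) :
    Nat.card {v : Place K F // 0 < v.ord t} =
      Nat.card (MulAction.orbitRel.Quotient (Subgroup.zpowers g) (Γ ⧸ H)) := by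
  -- groups
  haveI : Finite (imageGroup Γ L) := finite_imageGroup hfin
  have hG : IsGaloisGroup (imageGroup Γ L) K⟮t⟯ L := isGaloisGroup_imageGroup t ht hfix
  have hGF : IsGaloisGroup (fixF Γ L F) F L := IsGaloisGroup.of_isScalarTower _ K⟮t⟯ L F
  haveI : FiniteDimensional K⟮t⟯ L := hG.finiteDimensional
  haveI : FiniteDimensional F L := hGF.finiteDimensional
  haveI : FiniteDimensional K⟮t⟯ F := FiniteDimensional.left K⟮t⟯ F L
  -- rings
  haveI := isDedekindDomain_adjoin httr
  haveI := isDedekindDomain_integralClosure F httr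
  haveI := isDedekindDomain_integralClosure L httr
  haveI := isFractionRing_integralClosure (K := K) F t
  haveI := isFractionRing_integralClosure (K := K) L t
  haveI := finite_integralClosure L httr
  haveI := flat_integralClosure L httr
  -- (I0)
  haveI hcommK : SMulCommClass (imageGroup Γ L) K⟮t⟯ L := hG.commutes
  haveI hcommA : SMulCommClass (imageGroup Γ L) (Algebra.adjoin K {t}) L :=
    ⟨fun σ a x => by
      rw [← IsScalarTower.algebraMap_smul K⟮t⟯ a x, smul_comm,
        IsScalarTower.algebraMap_smul K⟮t⟯ a (σ • x)]⟩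
  -- (I1)
  haveI hI1 : IsGaloisGroup (imageGroup Γ L) (Algebra.adjoin K {t})
      (integralClosure (Algebra.adjoin K {t}) L) :=
    IsGaloisGroup.of_isFractionRing (imageGroup Γ L) (Algebra.adjoin K {t})
      (integralClosure (Algebra.adjoin K {t}) L) K⟮t⟯ L
  -- (I2)
  letI := algebraBFBL (K := K) (L := L) t
  haveI := isScalarTower_A_BF_BL (K := K) (L := L) t
  haveI := isScalarTower_BF_BL_L (K := K) (L := L) t
  haveI := faithfulSMul_BF_BL (K := K) (L := L) t
  haveI : Algebra.IsIntegral (Algebra.adjoin K {t}) (integralClosure (Algebra.adjoin K {t}) L) :=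
    inferInstance
  haveI : Algebra.IsIntegral (integralClosure (Algebra.adjoin K {t}) F)
      (integralClosure (Algebra.adjoin K {t}) L) :=
    Algebra.IsIntegral.tower_top (Algebra.adjoin K {t})
  haveI hI2 : IsGaloisGroup (fixF Γ L F) (integralClosure (Algebra.adjoin K {t}) F)
      (integralClosure (Algebra.adjoin K {t}) L) :=
    IsGaloisGroup.of_isFractionRing (fixF Γ L F) (integralClosure (Algebra.adjoin K {t}) F)
      (integralClosure (Algebra.adjoin K {t}) L) F L
  -- the valuation on `B_L`
  have hwt1 : w (algebraMap F L t) ≤ 1 := by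
    rw [hw, ← WithZero.exp_zero, WithZero.exp_le_exp]
    omega
  let w' : Valuation (integralClosure (Algebra.adjoin K {t}) L) (WithZero (Multiplicative ℤ)) :=
    w.comap (algebraMap (integralClosure (Algebra.adjoin K {t}) L) L)
  have hw' : ∀ b, w' b ≤ 1 := fun b =>
    valuation_le_one_of_isIntegral w (valuation_adjoin_le_one w hwK t hwt1) b.2
  have hw't : w' (algebraMap (Algebra.adjoin K {t}) (integralClosure (Algebra.adjoin K {t}) L)
      (tA K t)) = WithZero.exp (-(s : ℤ)) := hw
  -- the element of `G` induced by `g`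
  have hg' : ∀ b : integralClosure (Algebra.adjoin K {t}) L,
      w' ((toImage Γ L g) • b) = w' b := fun b => hg (b : L)
  have hord : s ≤ Nat.card (Subgroup.zpowers (toImage Γ L g)) := by
    rw [Nat.card_zpowers]
    have hdvd : ∀ k : ℕ, (toImage Γ L g) ^ k = 1 ↔ s ∣ k := by
      intro k
      have h1 := hgs (k : ℤ)
      rw [Int.natCast_dvd_natCast, zpow_natCast] at h1
      rw [← h1, ← map_pow]
      constructor
      · intro h x
        rw [← toImage_smul (g ^ k) x, h, one_smul]
      · intro h
        apply Subtype.ext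
        ext x
        exact h x
    have h2 : s ∣ orderOf (toImage Γ L g) := (hdvd _).mp (pow_orderOf_eq_one _)
    have h3 : orderOf (toImage Γ L g) ≠ 0 := (orderOf_pos _).ne'
    exact Nat.le_of_dvd (Nat.pos_of_ne_zero h3) h2
  -- the decomposition group
  have hstab := Fermat.Agent.S24Dec.stabilizer_centre_eq_zpowers (K := K)
    (G := imageGroup Γ L) w' hw' (tA K t) (isMaximal_span_tA httr) (surjective_mk_span_tA t)
    s hs hw't (toImage Γ L g) hg' hord
  have hwt2 : w' (algebraMap (Algebra.adjoin K {t}) (integralClosure (Algebra.adjoin K {t}) L)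
      (tA K t)) < 1 := by
    rw [hw't, ← WithZero.exp_zero, WithZero.exp_lt_exp]
    omega
  haveI hQover : (Fermat.Agent.S24Dec.centre w' hw').LiesOver (Ideal.span {tA K t}) :=
    Fermat.Agent.S24Dec.centre_liesOver w' hw' (tA K t) (isMaximal_span_tA httr) hwt2
  -- count
  rw [card_zeroPlaces_eq_card_primesOver httr,
    Fermat.Agent.S24Orb.card_primesOver_eq_card_orbits (G := imageGroup Γ L) (fixF Γ L F)
      (Ideal.span {tA K t}) (Fermat.Agent.S24Dec.centre w' hw'),
    Fermat.Agent.S24Orb.card_orbits_eq_orbCount (toImage Γ L) toImage_surjective (fixF Γ L F)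
      _ g hstab, comap_fixF H hH]

end Fermat.Agent.S24Fib
end
end MergeWrap_S24_ZeroPlaces
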