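import Mathlib
import Fermat.Prelude.Def_ModularCurve_ArithmeticGalois
import Fermat.Prelude.Def_ModularCurve_GenusNumerics
import Fermat.Prelude.Def_AlgebraicCurve_CanonicalDivisor
import Fermat.Agent.MU.S24.Field
import Fermat.Agent.MU.S24.JLocal
import Fermat.Agent.MU.S24.Periods
import Fermat.Agent.S24.Interface
import Fermat.Agent.MU.S24.Comb
import Fermat.Agent.MU.S24.Glue
import Fermat.Agent.MU.S24.GlobalDatum
import Fermat.Agent.MU.S24.InvariantsFinal
import Fermat.Agent.MU.S24.ValInf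
import Fermat.Agent.MU.S24.EmbF

section MergeWrap_S24_Val -- from S24/Val.lean

set_option autoImplicit false

noncomputable section

namespace Fermat.Agent.S24

open UpperHalfPlane
open scoped MatrixGroups Manifold Topology

/-- The order of vanishing of `f` at `τ₀`. -/
def ordAt (τ₀ : ℍ) (f : Fun) : ℕ∞ :=
  analyticOrderAt (fun z : ℂ => f (ofComplex z)) (τ₀ : ℂ)

/-- `k ↦ exp (-k)`, `⊤ ↦ 0`. -/
def expNeg (k : ℕ∞) : WithZero (Multiplicative ℤ) :=
  ENat.recTopCoe 0 (fun n : ℕ => WithZero.exp (-(n : ℤ))) k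

@[simp] theorem expNeg_top : expNeg ⊤ = 0 := rfl

@[simp] theorem expNeg_coe (n : ℕ) : expNeg (n : ℕ∞) = WithZero.exp (-(n : ℤ)) := rfl

@[simp] theorem expNeg_zero : expNeg 0 = 1 := by
  have : expNeg ((0 : ℕ) : ℕ∞) = 1 := by rw [expNeg_coe]; simp
  simpa using this

theorem expNeg_eq_zero_iff {k : ℕ∞} : expNeg k = 0 ↔ k = ⊤ := by
  induction k using ENat.recTopCoe with
  | top => simp
  | coe n => simp

theorem expNeg_add (a b : ℕ∞) : expNeg (a + b) = expNeg a * expNeg b := by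
  induction a using ENat.recTopCoe with
  | top => simp
  | coe m =>
    induction b using ENat.recTopCoe with
    | top => simp
    | coe n =>
      rw [← Nat.cast_add, expNeg_coe, expNeg_coe, expNeg_coe, ← WithZero.exp_add]
      congr 1
      push_cast
      ring

theorem expNeg_anti {a b : ℕ∞} (h : a ≤ b) : expNeg b ≤ expNeg a := by
  induction b using ENat.recTopCoe with
  | top => simp
  | coe n =>
    induction a using ENat.recTopCoe with
    | top => simp at h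
    | coe m =>
      rw [expNeg_coe, expNeg_coe, WithZero.exp_le_exp]
      have : m ≤ n := by exact_mod_cast h
      omega

theorem expNeg_le_max_of_min_le {a b c : ℕ∞} (h : min a b ≤ c) :
    expNeg c ≤ max (expNeg a) (expNeg b) := by
  rcases min_le_iff.mp h with h | h
  · exact le_max_of_le_left (expNeg_anti h)
  · exact le_max_of_le_right (expNeg_anti h)

theorem ordAt_zero (τ₀ : ℍ) : ordAt τ₀ 0 = ⊤ := analyticOrderAt_zero_fun τ₀

theorem ordAt_algebraMap (τ₀ : ℍ) {a : Kbar} (ha : a ≠ 0) :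
    ordAt τ₀ (algebraMap Kbar Fun a) = 0 := by
  have h : AnalyticAt ℂ (fun z : ℂ => (algebraMap Kbar Fun a) (ofComplex z)) (τ₀ : ℂ) :=
    (isHol_algebraMap a).analyticAt τ₀
  rw [ordAt, h.analyticOrderAt_eq_zero]
  simpa using ha

theorem ordAt_one (τ₀ : ℍ) : ordAt τ₀ 1 = 0 := by
  have := ordAt_algebraMap τ₀ (one_ne_zero : (1 : Kbar) ≠ 0)
  rwa [map_one] at this

theorem IsHol.ordAt_mul {f g : Fun} (hf : IsHol f) (hg : IsHol g) (τ₀ : ℍ) :
    ordAt τ₀ (f * g) = ordAt τ₀ f + ordAt τ₀ g :=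
  hf.analyticOrderAt_mul hg τ₀

theorem min_ordAt_le_add (f g : Fun) (τ₀ : ℍ) :
    min (ordAt τ₀ f) (ordAt τ₀ g) ≤ ordAt τ₀ (f + g) :=
  le_analyticOrderAt_add

theorem IsHol.ordAt_eq_top_iff {f : Fun} (hf : IsHol f) (τ₀ : ℍ) : ordAt τ₀ f = ⊤ ↔ f = 0 :=
  hf.analyticOrderAt_eq_top_iff τ₀

/-- The Möbius transformation `τ ↦ γ • τ` as a holomorphic function. -/
theorem isHol_coe_sl_smul (γ : SL(2, ℤ)) : IsHol (fun τ : ℍ => ((γ • τ : ℍ) : ℂ)) := by
  have h : MDifferentiable 𝓘(ℂ) 𝓘(ℂ) (((↑) : ℍ → ℂ) ∘ fun τ : ℍ => γ • τ) :=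
    MDifferentiable.comp mdifferentiable_coe (mdifferentiable_sl_smul γ)
  exact h

theorem IsHol.ordAt_le_ordAt_smul {f : Fun} (hf : IsHol f) (γ : SL(2, ℤ)) {τ₀ : ℍ}
    (hγ : γ • τ₀ = τ₀) : ordAt τ₀ f ≤ ordAt τ₀ (γ • f) := by
  have hγ' : γ⁻¹ • τ₀ = τ₀ := by
    conv_lhs => rw [← hγ]
    rw [inv_smul_smul]
  set m : ℂ → ℂ := fun z => ((γ⁻¹ • ofComplex z : ℍ) : ℂ) with hm
  have hm0 : m (τ₀ : ℂ) = (τ₀ : ℂ) := by
    simp only [hm, ofComplex_apply, hγ']
  have hma : AnalyticAt ℂ m (τ₀ : ℂ) := (isHol_coe_sl_smul γ⁻¹).analyticAt τ₀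
  have hcomp : (fun z : ℂ => (γ • f) (ofComplex z)) = (fun z : ℂ => f (ofComplex z)) ∘ m := by
    funext z
    simp only [Function.comp_apply, hm, ofComplex_apply, Fun.sl_smul_apply]
  have hfa : AnalyticAt ℂ (fun z : ℂ => f (ofComplex z)) (m (τ₀ : ℂ)) := by
    rw [hm0]; exact hf.analyticAt τ₀
  have key := hfa.analyticOrderAt_comp hma
  rw [hm0] at key
  have hk : 1 ≤ analyticOrderAt (fun z => m z - (τ₀ : ℂ)) (τ₀ : ℂ) := by
    rw [Order.one_le_iff_ne_zero]
    have ha : AnalyticAt ℂ (fun z => m z - (τ₀ : ℂ)) (τ₀ : ℂ) := hma.sub analyticAt_const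
    rw [ha.analyticOrderAt_ne_zero, hm0, sub_self]
  rw [ordAt, ordAt, hcomp, key]
  exact le_mul_of_one_le_right zero_le hk

theorem IsHol.ordAt_smul {f : Fun} (hf : IsHol f) (γ : SL(2, ℤ)) {τ₀ : ℍ}
    (hγ : γ • τ₀ = τ₀) : ordAt τ₀ (γ • f) = ordAt τ₀ f := by
  have hγ' : γ⁻¹ • τ₀ = τ₀ := by
    conv_lhs => rw [← hγ]
    rw [inv_smul_smul]
  refine le_antisymm ?_ (hf.ordAt_le_ordAt_smul γ hγ)
  have := (hf.sl_smul γ).ordAt_le_ordAt_smul γ⁻¹ hγ'
  rwa [inv_smul_smul] at this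

/-- The valuation `exp (- ord_{τ₀})` of `AL M`. -/
def valAL (M : ℕ) (τ₀ : ℍ) : Valuation (AL M) (WithZero (Multiplicative ℤ)) where
  toFun f := expNeg (ordAt τ₀ (f : Fun))
  map_zero' := by
    show expNeg (ordAt τ₀ (0 : Fun)) = 0
    rw [ordAt_zero, expNeg_top]
  map_one' := by
    show expNeg (ordAt τ₀ (1 : Fun)) = 1
    rw [ordAt_one, expNeg_zero]
  map_mul' f g := by
    show expNeg (ordAt τ₀ ((f : Fun) * (g : Fun))) = _
    rw [(isHol_of_mem_AL f.2).ordAt_mul (isHol_of_mem_AL g.2), expNeg_add]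
  map_add_le_max' f g := by
    show expNeg (ordAt τ₀ ((f : Fun) + (g : Fun))) ≤ _
    exact expNeg_le_max_of_min_le (min_ordAt_le_add _ _ τ₀)

theorem valAL_apply (M : ℕ) (τ₀ : ℍ) (f : AL M) :
    valAL M τ₀ f = expNeg (ordAt τ₀ (f : Fun)) := rfl

theorem valAL_eq_zero_iff (M : ℕ) (τ₀ : ℍ) (f : AL M) : valAL M τ₀ f = 0 ↔ f = 0 := by
  rw [valAL_apply, expNeg_eq_zero_iff, (isHol_of_mem_AL f.2).ordAt_eq_top_iff]
  exact ⟨fun h => Subtype.ext h, fun h => congrArg Subtype.val h⟩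

theorem valAL_smul (M : ℕ) {τ₀ : ℍ} (γ : SL(2, ℤ)) (hγ : γ • τ₀ = τ₀) (f : AL M) :
    valAL M τ₀ (γ • f) = valAL M τ₀ f := by
  rw [valAL_apply, valAL_apply, AL.coe_smul, (isHol_of_mem_AL f.2).ordAt_smul γ hγ]

theorem nonZeroDivisors_le_valAL_supp (M : ℕ) (τ₀ : ℍ) :
    nonZeroDivisors (AL M) ≤ (valAL M τ₀).supp.primeCompl := by
  intro f hf hmem
  rw [SetLike.mem_coe, Valuation.mem_supp_iff, valAL_eq_zero_iff] at hmem
  exact nonZeroDivisors.ne_zero hf hmem

/-- The valuation `exp (- ord_{τ₀})` of `LL M`. -/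
def valLL (M : ℕ) (τ₀ : ℍ) : Valuation (LL M) (WithZero (Multiplicative ℤ)) :=
  (valAL M τ₀).extendToLocalization (nonZeroDivisors_le_valAL_supp M τ₀) (LL M)

@[simp] theorem valLL_algebraMap (M : ℕ) (τ₀ : ℍ) (f : AL M) :
    valLL M τ₀ (algebraMap (AL M) (LL M) f) = valAL M τ₀ f :=
  Valuation.extendToLocalization_apply_map_apply _ _ _ f

theorem valLL_smul (M : ℕ) {τ₀ : ℍ} (γ : SL(2, ℤ)) (hγ : γ • τ₀ = τ₀) (x : LL M) :
    valLL M τ₀ (γ • x) = valLL M τ₀ x := by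
  obtain ⟨a, b, hb, rfl⟩ := IsFractionRing.div_surjective (A := AL M) x
  rw [smul_div₀', LL.smul_algebraMap, LL.smul_algebraMap, map_div₀, map_div₀,
    valLL_algebraMap, valLL_algebraMap, valLL_algebraMap, valLL_algebraMap,
    valAL_smul M γ hγ, valAL_smul M γ hγ]

theorem valLL_algebraMap_Kbar (M : ℕ) (τ₀ : ℍ) {a : Kbar} (ha : a ≠ 0) :
    valLL M τ₀ (algebraMap Kbar (LL M) a) = 1 := by
  rw [IsScalarTower.algebraMap_apply Kbar (AL M) (LL M), valLL_algebraMap, valAL_apply]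
  show expNeg (ordAt τ₀ (algebraMap Kbar Fun a)) = 1
  rw [ordAt_algebraMap τ₀ ha, expNeg_zero]

/-- Order of vanishing at `τ₀` as a valuation of `LL M` (AN-V, finite places). -/
theorem exists_valuation_at_aux (M : ℕ) (τ₀ : ℍ) :
    ∃ w : Valuation (LL M) (WithZero (Multiplicative ℤ)),
      (∀ a : Kbar, a ≠ 0 → w (algebraMap Kbar (LL M) a) = 1) ∧
      (∀ (f : AL M) (k : ℕ),
        analyticOrderAt (fun z : ℂ => (f : Fun) (ofComplex z)) (τ₀ : ℂ) = (k : ℕ∞) →
        w (algebraMap (AL M) (LL M) f) = WithZero.exp (-(k : ℤ))) ∧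
      (∀ γ : SL(2, ℤ), γ • τ₀ = τ₀ → ∀ x : LL M, w (γ • x) = w x) := by
  refine ⟨valLL M τ₀, fun a ha => valLL_algebraMap_Kbar M τ₀ ha, fun f k hk => ?_,
    fun γ hγ x => valLL_smul M γ hγ x⟩
  rw [valLL_algebraMap, valAL_apply, ordAt, hk, expNeg_coe]

end Fermat.Agent.S24
end
end MergeWrap_S24_Val

section MergeWrap_S24_LocalDatum -- from S24/LocalDatum.lean

set_option autoImplicit false

noncomputable section

namespace Fermat.Agent.S24

open UpperHalfPlane
open scoped MatrixGroups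

/-- The underlying function of `j - c`. -/
theorem coe_jAL_sub_algebraMap (M : ℕ) (c : Kbar) (τ : ℍ) :
    ((jAL M - algebraMap Kbar (AL M) c : AL M) : Fun) τ = jFun τ - iota c := rfl

theorem jLL_sub_algebraMap (M : ℕ) (c : Kbar) :
    jLL M - algebraMap Kbar (LL M) c =
      algebraMap (AL M) (LL M) (jAL M - algebraMap Kbar (AL M) c) := by
  rw [map_sub, ← IsScalarTower.algebraMap_apply Kbar (AL M) (LL M)]
  rfl

/-- The valuation of `j - c` at `τ₀` from the analytic order. -/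
theorem valLL_jLL_sub (M : ℕ) (τ₀ : ℍ) (c : Kbar) (k : ℕ)
    (h : analyticOrderAt (fun z : ℂ => jFun (ofComplex z) - iota c) (τ₀ : ℂ) = (k : ℕ∞)) :
    valLL M τ₀ (jLL M - algebraMap Kbar (LL M) c) = WithZero.exp (-(k : ℤ)) := by
  rw [jLL_sub_algebraMap, valLL_algebraMap, valAL_apply]
  have h' : ordAt τ₀ ((jAL M - algebraMap Kbar (AL M) c : AL M) : Fun) = (k : ℕ∞) := h
  rw [h', expNeg_coe]

theorem iota_ofNat_1728 : iota (1728 : Kbar) = (1728 : ℂ) := map_ofNat iota 1728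

theorem exists_local_datum (M : ℕ) [NeZero M] (hM : 2 ≤ M) (c : Kbar) :
    ∃ (w : Valuation (LL M) (WithZero (Multiplicative ℤ))) (s : ℕ) (g : SL(2, ℤ)),
      (∀ a : Kbar, a ≠ 0 → w (algebraMap Kbar (LL M) a) = 1) ∧ 0 < s ∧
      w (jLL M - algebraMap Kbar (LL M) c) = WithZero.exp (-(s : ℤ)) ∧
      (∀ x : LL M, w (g • x) = w x) ∧
      (∀ k : ℤ, (∀ x : LL M, (g ^ k) • x = x) ↔ (s : ℤ) ∣ k) ∧
      (c = 1728 → g = ModularGroup.S) ∧ (c = 0 → g = ModularGroup.S * ModularGroup.T) ∧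
      (c ≠ 0 → c ≠ 1728 → s = 1) := by
  have h1728 : (1728 : Kbar) ≠ 0 := by norm_num
  by_cases hc1 : c = 1728
  · -- the elliptic point `i`
    subst hc1
    refine ⟨valLL M UpperHalfPlane.I, 2, ModularGroup.S,
      fun a ha => valLL_algebraMap_Kbar M _ ha, by norm_num, ?_,
      fun x => valLL_smul M _ JLocal.S_smul_I' x, ?_, fun _ => rfl,
      fun h => absurd h h1728, fun _ h => absurd rfl h⟩
    · refine valLL_jLL_sub M _ _ 2 ?_
      rw [iota_ofNat_1728]
      exact JLocal.analyticOrderAt_jFun_I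
    · intro k
      rw [S_zpow_smul_eq_iff M hM k]
      norm_num
  by_cases hc0 : c = 0
  · -- the elliptic point `ρ`
    subst hc0
    refine ⟨valLL M UpperHalfPlane.ρ, 3, ModularGroup.S * ModularGroup.T,
      fun a ha => valLL_algebraMap_Kbar M _ ha, by norm_num, ?_,
      fun x => valLL_smul M _ JLocal.ST_smul_rho x, ?_, fun h => absurd h hc1,
      fun _ => rfl, fun h _ => absurd rfl h⟩
    · refine valLL_jLL_sub M _ _ 3 ?_
      simp only [map_zero, sub_zero]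
      exact JLocal.analyticOrderAt_jFun_rho
    · intro k
      rw [ST_zpow_smul_eq_iff M hM k]
      norm_num
  · -- a generic point
    obtain ⟨τ₀, hτ₀⟩ := JLocal.jFun_surjective (iota c)
    have h0 : jFun τ₀ ≠ 0 := by
      rw [hτ₀]
      exact (map_ne_zero iota).mpr hc0
    have h1 : jFun τ₀ ≠ 1728 := by
      rw [hτ₀, ← iota_ofNat_1728]
      exact fun h => hc1 (iota.injective h)
    refine ⟨valLL M τ₀, 1, 1, fun a ha => valLL_algebraMap_Kbar M _ ha, by norm_num, ?_,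
      fun x => by rw [one_smul], ?_, fun h => absurd h hc1, fun h => absurd h hc0,
      fun _ _ => rfl⟩
    · refine valLL_jLL_sub M _ _ 1 ?_
      rw [← hτ₀]
      exact_mod_cast JLocal.analyticOrderAt_jFun_sub τ₀ h0 h1
    · intro k
      simp

end Fermat.Agent.S24
end
end MergeWrap_S24_LocalDatum

section MergeWrap_S24_Assembly -- from S24/Assembly.lean

set_option autoImplicit false

open KaehlerDifferential UpperHalfPlane

namespace Fermat.Agent.S24

open scoped MatrixGroups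
open AlgebraicCurve

/-- The arithmetic at the very end: `(2g - 2 + 2).toNat / 2 = g`. -/
theorem toNat_div_two_of_eq (d : ℤ) (g : ℕ) (h : d = 2 * (g : ℤ) - 2) :
    (d + 2).toNat / 2 = g := by
  subst h
  have : (2 * (g : ℤ) - 2 + 2).toNat = 2 * g := by omega
  rw [this]
  omega

/-- The algebra glue, stated for an embedding `φ : F →ₐ[K] L` instead of an `Algebra F L`
instance. -/
theorem degree_canonical_of_hom
    {K F L Γ : Type*} [Field K] [IsAlgClosed K] [CharZero K]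
    [Field F] [Algebra K F] [Field L] [Algebra K L]
    [Group Γ] [MulSemiringAction Γ L] [SMulCommClass Γ K L]
    (φ : F →ₐ[K] L) (j : F) (jL : L) (hφj : φ j = jL)
    (htr : Transcendental K jL)
    (hfin : ∃ Γ' : Subgroup Γ, Γ'.FiniteIndex ∧ ∀ g ∈ Γ', ∀ x : L, g • x = x)
    (hj : ∀ g : Γ, g • jL = jL)
    (hfix : ∀ x : L, (∀ g : Γ, g • x = x) → x ∈ IntermediateField.adjoin K {jL})
    (H : Subgroup Γ)
    (hH : ∀ g : Γ, g ∈ H ↔ ∀ x : F, g • φ x = φ x)
    (w : K → Valuation L (WithZero (Multiplicative ℤ))) (s : K → ℕ) (g : K → Γ)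
    (hwK : ∀ c (a : K), a ≠ 0 → w c (algebraMap K L a) = 1)
    (hs : ∀ c, 0 < s c)
    (hw : ∀ c, w c (jL - algebraMap K L c) = WithZero.exp (-(s c : ℤ)))
    (hg : ∀ c x, w c (g c • x) = w c x)
    (hgs : ∀ c (k : ℤ), (∀ x : L, (g c ^ k) • x = x) ↔ (s c : ℤ) ∣ k)
    (S : Finset K) (hS : ∀ c, c ∉ S → s c = 1)
    (winf : Valuation L (WithZero (Multiplicative ℤ))) (sinf : ℕ) (ginf : Γ)
    (hwinfK : ∀ a : K, a ≠ 0 → winf (algebraMap K L a) = 1)
    (hsinf : 0 < sinf)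
    (hwinf : winf jL = WithZero.exp (sinf : ℤ))
    (hginf : ∀ x, winf (ginf • x) = winf x)
    (hgsinf : ∀ k : ℤ, (∀ x : L, (ginf ^ k) • x = x) ↔ (sinf : ℤ) ∣ k)
    (ω : Ω[F⁄K]) (hω : ω ≠ 0) (Dv : Divisor K F)
    (hDv : ∀ v : Place K F, Dv v = v.ordDifferential ω) :
    Divisor.degree Dv =
      ∑ c ∈ S, ((H.index : ℤ) - orbCount H (g c)) - H.index - orbCount H ginf := by
  letI : Algebra F L := φ.toRingHom.toAlgebra
  haveI : IsScalarTower K F L := IsScalarTower.of_algebraMap_eq (fun a => (φ.commutes a).symm)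
  have hmap : ∀ x : F, algebraMap F L x = φ x := fun _ => rfl
  have hjtr : Transcendental K j := by
    intro h
    apply htr
    rw [← hφj]
    exact IsAlgebraic.algHom φ h
  exact Fermat.Agent.S24Glue.degree_canonical_of_galois_datum' (K := K) (F := F) (L := L) (Γ := Γ) j hjtr hfin
    (by rw [hmap, hφj]; exact hj) (by rw [hmap, hφj]; exact hfix) H hH w s g hwK hs
    (fun c => by
      rw [map_sub, hmap, hφj, ← IsScalarTower.algebraMap_apply]
      exact hw c)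
    hg hgs S hS winf sinf ginf hwinfK hsinf (by rw [hmap, hφj]; exact hwinf) hginf hgsinf
    ω hω Dv hDv

set_option synthInstance.maxHeartbeats 400000 in
set_option maxHeartbeats 2000000 in
/-- Final assembly, with every external input as a hypothesis. -/
theorem genus_eq_of_inputs (N : ℕ) [NeZero N]
    [AlgebraicCurve.HasCanonicalDivisor (K := Kbar)
      (F := ↥(ModularCurve.modularFunctionFieldBar N))]
    -- the embedding of the Prelude's field
    (jB : ↥(ModularCurve.modularFunctionFieldBar N))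
    (hemb : ∃ φ : ↥(ModularCurve.modularFunctionFieldBar N) →ₐ[Kbar] LL (2 * N),
      φ jB = jLL (2 * N) ∧
      ∀ γ : SL(2, ℤ), γ ∈ CongruenceSubgroup.Gamma0 N ↔ ∀ x, γ • φ x = φ x)
    -- the global datum
    (htr : Transcendental Kbar (jLL (2 * N)))
    (hfin : ∃ Γ' : Subgroup SL(2, ℤ), Γ'.FiniteIndex ∧ ∀ g ∈ Γ', ∀ x : LL (2 * N), g • x = x)
    (hj : ∀ g : SL(2, ℤ), g • jLL (2 * N) = jLL (2 * N))
    (hfix : ∀ x : LL (2 * N), (∀ g : SL(2, ℤ), g • x = x) →
      x ∈ IntermediateField.adjoin Kbar {jLL (2 * N)})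
    -- the local data
    (hloc : ∀ c : Kbar, ∃ (w : Valuation (LL (2 * N)) (WithZero (Multiplicative ℤ))) (s : ℕ)
      (g : SL(2, ℤ)),
      (∀ a : Kbar, a ≠ 0 → w (algebraMap Kbar (LL (2 * N)) a) = 1) ∧ 0 < s ∧
      w (jLL (2 * N) - algebraMap Kbar (LL (2 * N)) c) = WithZero.exp (-(s : ℤ)) ∧
      (∀ x : LL (2 * N), w (g • x) = w x) ∧
      (∀ k : ℤ, (∀ x : LL (2 * N), (g ^ k) • x = x) ↔ (s : ℤ) ∣ k) ∧
      (c = 1728 → g = ModularGroup.S) ∧ (c = 0 → g = ModularGroup.S * ModularGroup.T) ∧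
      (c ≠ 0 → c ≠ 1728 → s = 1))
    (hinf : ∃ w : Valuation (LL (2 * N)) (WithZero (Multiplicative ℤ)),
      (∀ a : Kbar, a ≠ 0 → w (algebraMap Kbar (LL (2 * N)) a) = 1) ∧
      w (jLL (2 * N)) = WithZero.exp ((2 * N : ℕ) : ℤ) ∧
      (∀ x : LL (2 * N), w (ModularGroup.T • x) = w x))
    (hTk : ∀ k : ℤ, (∀ x : LL (2 * N), (ModularGroup.T ^ k) • x = x) ↔ ((2 * N : ℕ) : ℤ) ∣ k)
    (hω : ∃ ω : Ω[↥(ModularCurve.modularFunctionFieldBar N)⁄Kbar], ω ≠ 0) :
    (AlgebraicCurve.genus Kbar ↥(ModularCurve.modularFunctionFieldBar N) : ℚ)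
      = ModularCurve.genusFormula N := by
  classical
  obtain ⟨φ, hφj, hφH⟩ := hemb
  choose w s g hwK hs hw hg hgs hg1728 hg0 hs1 using hloc
  obtain ⟨winf, hwinfK, hwinf, hginf⟩ := hinf
  have h2N : 0 < 2 * N := Nat.mul_pos two_pos (Nat.pos_of_ne_zero (NeZero.ne N))
  have key := degree_canonical_of_hom (K := Kbar) (L := LL (2 * N)) (Γ := SL(2, ℤ))
    φ jB (jLL (2 * N)) hφj htr hfin hj hfix
    (CongruenceSubgroup.Gamma0 N) (fun γ => hφH γ) w s g hwK hs hw hg hgs {0, 1728}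
    (fun c hc => by
      simp only [Finset.mem_insert, Finset.mem_singleton, not_or] at hc
      exact hs1 c hc.1 hc.2)
    winf (2 * N) ModularGroup.T hwinfK h2N hwinf hginf hTk
  have hdeg := key hω.choose hω.choose_spec (canonicalDivisorOf hω.choose_spec)
    (canonicalDivisorOf_apply hω.choose_spec)
  have h01728 : (0 : Kbar) ≠ 1728 := by norm_num
  rw [Finset.sum_pair h01728, hg0 0 rfl, hg1728 1728 rfl] at hdeg
  obtain ⟨gn, hgn, hcomb⟩ := comb_degree N
  have hd2 : Divisor.degree (canonicalDivisorOf hω.choose_spec) = 2 * (gn : ℤ) - 2 := by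
    rw [hdeg, ← hcomb]
    ring
  unfold AlgebraicCurve.genus
  rw [dif_pos hω, toNat_div_two_of_eq _ gn hd2, hgn]

/-- The valuation at the cusp `∞` (wiring of `exists_valuation_inf_of`). -/
theorem exists_valuation_inf' (M : ℕ) [NeZero M] :
    ∃ w : Valuation (LL M) (WithZero (Multiplicative ℤ)),
      (∀ a : Kbar, a ≠ 0 → w (algebraMap Kbar (LL M) a) = 1) ∧
      w (jLL M) = WithZero.exp (M : ℤ) ∧
      (∀ x : LL M, w (ModularGroup.T • x) = w x) := by
  refine exists_valuation_inf_of M (fun f hf => exists_hasExp_of_mem_gens M hf) ?_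
  have h := hasExp_jd M 1 (one_dvd M)
  have h1 : jd 1 = jFun := by
    ext τ
    show jFun (scale 1 τ) = jFun τ
    congr 1
    ext
    simp
  rw [h1, ModularCurve.qExpand_congr (mul_one M)] at h
  exact h

/-- **S24**: the genus of the function field of `X₀(N)` over `ℚ̄` is the classical formula. -/
theorem genus_modularFunctionFieldBar (N : ℕ) [NeZero N]
    [AlgebraicCurve.HasCanonicalDivisor (K := Kbar)
      (F := ↥(ModularCurve.modularFunctionFieldBar N))] :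
    (AlgebraicCurve.genus Kbar ↥(ModularCurve.modularFunctionFieldBar N) : ℚ)
      = ModularCurve.genusFormula N := by
  haveI : NeZero (2 * N) := ⟨Nat.mul_ne_zero two_ne_zero (NeZero.ne N)⟩
  have h2 : 2 ≤ 2 * N := by
    have := Nat.pos_of_ne_zero (NeZero.ne N)
    omega
  exact genus_eq_of_inputs N (jBar N) (exists_embF N) (transcendental_jLL (2 * N))
    (exists_finiteIndex_fixing (2 * N)) (smul_jLL (2 * N))
    (Fermat.Agent.S24Inv.mem_adjoin_jLL_of_invariant' (2 * N))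
    (exists_local_datum (2 * N) h2) (exists_valuation_inf' (2 * N))
    (T_zpow_smul_eq_iff (2 * N)) (exists_nonzero_differential N)

end Fermat.Agent.S24
end MergeWrap_S24_Assembly
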